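import Mathlib.LinearAlgebra.Matrix.Charpoly.Coeff
import Mathlib.LinearAlgebra.Matrix.GeneralLinearGroup.Defs
import Mathlib.LinearAlgebra.Matrix.Notation
import Mathlib.RingTheory.DiscreteValuationRing.Basic
import Mathlib.RingTheory.LocalRing.ResidueField.Basic
import Mathlib.Tactic.LinearCombination

/-!
# Pairs of commuting `2 × 2` matrices in triangular form

Algebra behind the local rings of lifts at a prime `q ≡ 1 (mod p)`: upper triangular pairs, change
of basis, the relation between `2 × 2` matrices with two given eigenvalues, and triangularisation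
over a discrete valuation ring.
-/

set_option autoImplicit false

namespace Fermat.Agent.RT.LocalRing

open IsLocalRing Matrix

/-- `2 × 2` matrices. -/
abbrev Mat (R : Type*) := Matrix (Fin 2) (Fin 2) R

section Basic

variable {R : Type*} [CommRing R]

/-- Conjugation by an invertible matrix. -/
def cj (g : (Mat R)ˣ) (M : Mat R) : Mat R := (g : Mat R) * M * ((g⁻¹ : (Mat R)ˣ) : Mat R)

/-- The upper triangular matrix with diagonal `w, w'` and corner `b`. -/
def upT (w w' b : R) : Mat R := !![w, b; 0, w']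

/-- The pair (Frobenius, generator of inertia) which is upper triangular in the basis `g`. -/
def up (g : (Mat R)ˣ) (w w' a a' b y : R) : Mat R × Mat R :=
  (cj g (upT a a' y), cj g (upT w w' b))

theorem cj_mul (g h : (Mat R)ˣ) (M : Mat R) : cj (g * h) M = cj g (cj h M) := by
  simp only [cj, _root_.mul_inv_rev, Units.val_mul, mul_assoc]

theorem cj_one (M : Mat R) : cj 1 M = M := by simp [cj]

theorem cj_mul_cj (g : (Mat R)ˣ) (M N : Mat R) : cj g M * cj g N = cj g (M * N) := by
  simp only [cj, mul_assoc, Units.inv_mul_cancel_left]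

theorem cj_sub (g : (Mat R)ˣ) (M N : Mat R) : cj g (M - N) = cj g M - cj g N := by
  simp only [cj, mul_sub, sub_mul]

theorem cj_smul_one (g : (Mat R)ˣ) (c : R) : cj g (c • (1 : Mat R)) = c • (1 : Mat R) := by
  simp [cj]

theorem det_cj (g : (Mat R)ˣ) (M : Mat R) : (cj g M).det = M.det := by
  rw [cj, Matrix.det_mul_right_comm, Units.mul_inv, one_mul]

theorem trace_cj (g : (Mat R)ˣ) (M : Mat R) : (cj g M).trace = M.trace := by
  rw [cj, Matrix.trace_mul_cycle, Units.inv_mul, one_mul]

theorem map_cj {S : Type*} [CommRing S] (f : R →+* S) (g : (Mat R)ˣ) (M : Mat R) :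
    (cj g M).map f = cj (Units.map f.mapMatrix.toMonoidHom g) (M.map f) := by
  show f.mapMatrix (cj g M) = _
  rw [cj, map_mul, map_mul]
  rfl

theorem map_upT {S : Type*} [CommRing S] (f : R →+* S) (w w' b : R) :
    (upT w w' b).map f = upT (f w) (f w') (f b) := by
  ext i j
  fin_cases i <;> fin_cases j <;> simp [upT]

theorem det_upT (w w' b : R) : (upT w w' b).det = w * w' := by simp [upT, Matrix.det_fin_two]

theorem trace_upT (w w' b : R) : (upT w w' b).trace = w + w' := by simp [upT, Matrix.trace_fin_two]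

theorem upT_mul_comm {w w' a a' b y : R} (h : (w - w') * y = (a - a') * b) :
    upT a a' y * upT w w' b = upT w w' b * upT a a' y := by
  ext i j
  fin_cases i <;> fin_cases j <;> simp [upT, Matrix.mul_apply, Fin.sum_univ_two]
  · ring
  · linear_combination -h
  · ring

/-- The invertible matrix `(1, e; 0, 1)`. -/
def uU (e : R) : (Mat R)ˣ where
  val := !![1, e; 0, 1]
  inv := !![1, -e; 0, 1]
  val_inv := by ext i j; fin_cases i <;> fin_cases j <;> simp [Matrix.mul_apply, Fin.sum_univ_two]
  inv_val := by ext i j; fin_cases i <;> fin_cases j <;> simp [Matrix.mul_apply, Fin.sum_univ_two]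

/-- The invertible matrix `(1, 0; u, 1)`. -/
def uL (u : R) : (Mat R)ˣ where
  val := !![1, 0; u, 1]
  inv := !![1, 0; -u, 1]
  val_inv := by ext i j; fin_cases i <;> fin_cases j <;> simp [Matrix.mul_apply, Fin.sum_univ_two]
  inv_val := by ext i j; fin_cases i <;> fin_cases j <;> simp [Matrix.mul_apply, Fin.sum_univ_two]

/-- The invertible matrix exchanging the two basis vectors. -/
def uS (R : Type*) [CommRing R] : (Mat R)ˣ where
  val := !![0, 1; 1, 0]
  inv := !![0, 1; 1, 0]
  val_inv := by ext i j; fin_cases i <;> fin_cases j <;> simp [Matrix.mul_apply, Fin.sum_univ_two]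
  inv_val := by ext i j; fin_cases i <;> fin_cases j <;> simp [Matrix.mul_apply, Fin.sum_univ_two]

/-- An invertible diagonal matrix. -/
def uD (d₁ d₂ : Rˣ) : (Mat R)ˣ where
  val := !![(d₁ : R), 0; 0, d₂]
  inv := !![((d₁⁻¹ : Rˣ) : R), 0; 0, ((d₂⁻¹ : Rˣ) : R)]
  val_inv := by ext i j; fin_cases i <;> fin_cases j <;> simp [Matrix.mul_apply, Fin.sum_univ_two]
  inv_val := by ext i j; fin_cases i <;> fin_cases j <;> simp [Matrix.mul_apply, Fin.sum_univ_two]

/-- An invertible matrix with given entries. -/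
noncomputable def uM (p s r t : R) (h : IsUnit (p * t - s * r)) : (Mat R)ˣ :=
  ((Matrix.isUnit_iff_isUnit_det !![p, s; r, t]).mpr (by rwa [Matrix.det_fin_two_of])).unit

theorem uM_val (p s r t : R) (h : IsUnit (p * t - s * r)) :
    (uM p s r t h : Mat R) = !![p, s; r, t] := IsUnit.unit_spec _

theorem cj_uU (e w w' : R) : cj (uU e) (upT w w' 0) = upT w w' (e * (w' - w)) := by
  ext i j
  fin_cases i <;> fin_cases j <;> simp [cj, uU, upT, Matrix.mul_apply, Fin.sum_univ_two]
  ring

theorem cj_uS (w w' : R) : cj (uS R) (upT w w' 0) = upT w' w 0 := by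
  ext i j
  fin_cases i <;> fin_cases j <;> simp [cj, uS, upT, Matrix.mul_apply, Fin.sum_univ_two]

theorem cj_uD (d₁ d₂ : Rˣ) (w w' : R) : cj (uD d₁ d₂) (upT w w' 0) = upT w w' 0 := by
  ext i j
  fin_cases i <;> fin_cases j <;>
    simp [cj, uD, upT, Matrix.mul_apply, Fin.sum_univ_two, mul_comm, mul_assoc, mul_left_comm]

theorem up_mul_uU (g : (Mat R)ˣ) (e w w' a a' : R) :
    up (g * uU e) w w' a a' 0 0 = up g w w' a a' (e * (w' - w)) (e * (a' - a)) := by
  simp only [up, cj_mul, cj_uU]

theorem up_mul_uS (g : (Mat R)ˣ) (w w' a a' : R) :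
    up (g * uS R) w w' a a' 0 0 = up g w' w a' a 0 0 := by
  simp only [up, cj_mul, cj_uS]

theorem up_mul_uD (g : (Mat R)ˣ) (d₁ d₂ : Rˣ) (w w' a a' : R) :
    up (g * uD d₁ d₂) w w' a a' 0 0 = up g w w' a a' 0 0 := by
  simp only [up, cj_mul, cj_uD]

theorem fst_up_mul_snd_up (g : (Mat R)ˣ) {w w' a a' b y : R}
    (h : (w - w') * y = (a - a') * b) :
    (up g w w' a a' b y).1 * (up g w w' a a' b y).2 =
      (up g w w' a a' b y).2 * (up g w w' a a' b y).1 := by
  simp only [up, cj_mul_cj, upT_mul_comm h]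

/-- A `2 × 2` matrix with eigenvalues `z`, `z'`, shifted by `z'`, squares to a multiple of
itself. -/
theorem shift_sq {S : Mat R} {z z' : R} (ht : S.trace = z + z') (hd : S.det = z * z') :
    (S - z' • 1) * (S - z' • 1) = (z - z') • (S - z' • 1) := by
  rw [Matrix.trace_fin_two] at ht
  rw [Matrix.det_fin_two] at hd
  ext i j
  fin_cases i <;> fin_cases j <;>
    simp [Matrix.mul_apply, Fin.sum_univ_two, Matrix.sub_apply]
  · linear_combination (S 0 0) * ht - hd
  · linear_combination (S 0 1) * ht
  · linear_combination (S 1 0) * ht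
  · linear_combination (S 1 1) * ht - hd

/-- A `2 × 2` matrix over a domain with distinct eigenvalues `z, z'`, fixed by the `n`-th power
map, is fixed by that map. -/
theorem pow_eq_self [IsDomain R] {S : Mat R} {z z' : R} {n : ℕ} (hne : z ≠ z')
    (ht : S.trace = z + z') (hd : S.det = z * z') (hz : z ^ n = z) (hz' : z' ^ n = z') :
    S ^ n = S := by
  set A := S - z' • (1 : Mat R) with hA
  have hAA : A * A = (z - z') • A := shift_sq ht hd
  have hS : S = z' • 1 + A := by rw [hA]; abel
  have key : ∀ k : ℕ, (z - z') • S ^ k =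
      ((z - z') * z' ^ k) • (1 : Mat R) + (z ^ k - z' ^ k) • A := by
    intro k
    induction k with
    | zero => simp
    | succ k ih =>
      rw [pow_succ, ← smul_mul_assoc, ih, hS, mul_add, add_mul, add_mul]
      simp only [smul_mul_assoc, mul_smul_comm, one_mul, mul_one, hAA, smul_smul]
      module
  have h := key n
  rw [hz, hz'] at h
  have h' : (z - z') • S ^ n = (z - z') • S := by
    rw [h, hA]
    module
  refine Matrix.ext fun i j => mul_left_cancel₀ (sub_ne_zero.mpr hne) ?_
  exact congrFun (congrFun h' i) j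

end Basic

section Local

variable {R : Type*} [CommRing R] [IsLocalRing R]

/-- All entries lie in the maximal ideal. -/
def MemMax (M : Mat R) : Prop := ∀ i j, M i j ∈ maximalIdeal R

theorem MemMax.mul_left {M : Mat R} (h : MemMax M) (N : Mat R) : MemMax (N * M) := by
  intro i j
  rw [Matrix.mul_apply]
  exact sum_mem fun k _ => Ideal.mul_mem_left _ _ (h k j)

theorem MemMax.mul_right {M : Mat R} (h : MemMax M) (N : Mat R) : MemMax (M * N) := by
  intro i j
  rw [Matrix.mul_apply]
  exact sum_mem fun k _ => Ideal.mul_mem_right _ _ (h i k)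

theorem memMax_cj {g : (Mat R)ˣ} {M : Mat R} {c : R} (h : MemMax (M - c • 1)) :
    MemMax (cj g M - c • 1) := by
  rw [← cj_smul_one g c, ← cj_sub]
  exact (h.mul_left _).mul_right _

theorem memMax_upT {w w' b c : R} (hw : w - c ∈ maximalIdeal R) (hw' : w' - c ∈ maximalIdeal R)
    (hb : b ∈ maximalIdeal R) : MemMax (upT w w' b - c • 1) := by
  intro i j
  fin_cases i <;> fin_cases j <;> simp only [upT, Matrix.sub_apply, Matrix.smul_apply] <;>
    simp [hw, hw', hb]

theorem isUnit_of_sub_mem {a b : R} (h : a - b ∈ maximalIdeal R) (hb : IsUnit b) : IsUnit a := by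
  by_contra ha
  exact (IsLocalRing.mem_maximalIdeal b).mp
    (by simpa using Ideal.sub_mem _ ((IsLocalRing.mem_maximalIdeal a).mpr ha) h) hb

/-- If one of the terms of a unit difference is in the maximal ideal, the other is a unit. -/
theorem isUnit_of_mul_sub {p t s r : R} (hdet : IsUnit (p * t - s * r))
    (h : s * r ∈ maximalIdeal R) : IsUnit p ∧ IsUnit t :=
  IsUnit.mul_iff.mp (isUnit_of_sub_mem (b := p * t - s * r) (by simpa using h) hdet)

end Local

section DVR

variable {V : Type*} [CommRing V] [IsDomain V] [IsDiscreteValuationRing V]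

theorem exists_normalised (x y : V) (h : x ≠ 0 ∨ y ≠ 0) :
    ∃ g : (Mat V)ˣ, ∃ c : V, c ≠ 0 ∧ x = c * (g : Mat V) 0 0 ∧ y = c * (g : Mat V) 1 0 := by
  rcases ValuationRing.dvd_total x y with ⟨u, hu⟩ | ⟨w, hw⟩
  · refine ⟨uL u, x, ?_, by simp [uL], by simp [uL, hu]⟩
    rintro rfl
    simp [hu] at h
  · refine ⟨uM w (-1) 1 0 (by simp), y, ?_, by simp [uM_val, hw], by simp [uM_val]⟩
    rintro rfl
    simp [hw] at h

/-- A commuting pair whose second member has the distinct eigenvalues `z, z'` is simultaneously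
upper triangular in a basis over the valuation ring. -/
theorem exists_up {F S : Mat V} {z z' : V} (hne : z ≠ z') (hcomm : F * S = S * F)
    (ht : S.trace = z + z') (hd : S.det = z * z') :
    ∃ (g : (Mat V)ˣ) (a a' b y : V), (F, S) = up g z z' a a' b y ∧
      (z - z') * y = (a - a') * b ∧ a * a' = F.det := by
  set A := S - z' • (1 : Mat V) with hA
  have hAA : A * A = (z - z') • A := shift_sq ht hd
  have hSA : S * A = z • A := by
    have : S = z' • 1 + A := by rw [hA]; abel
    rw [this, add_mul, hAA, smul_mul_assoc, one_mul]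
    module
  obtain ⟨k, hk⟩ : ∃ k, A 0 k ≠ 0 ∨ A 1 k ≠ 0 := by
    by_contra hcon
    push Not at hcon
    have h0 : A.trace = z - z' := by
      rw [hA, Matrix.trace_sub, ht, Matrix.trace_smul, Matrix.trace_one]
      simp
      ring
    rw [Matrix.trace_fin_two, (hcon 0).1, (hcon 1).2, add_zero] at h0
    exact hne (sub_eq_zero.mp h0.symm)
  obtain ⟨g, c, hc, hx, hy⟩ := exists_normalised _ _ hk
  have hcol : ∀ i, (S * (g : Mat V)) i 0 = z * (g : Mat V) i 0 := by
    intro i
    refine mul_left_cancel₀ hc ?_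
    have h1 := congrFun (congrFun hSA i) k
    simp only [Matrix.mul_apply, Fin.sum_univ_two, Matrix.smul_apply, smul_eq_mul] at h1 ⊢
    fin_cases i <;> simp only [Fin.zero_eta, Fin.mk_one] at h1 ⊢ <;>
      rw [hx, hy] at h1 <;> linear_combination h1
  set S' := cj g⁻¹ S with hS'
  set F' := cj g⁻¹ F with hF'
  have hS0 : ∀ i, S' i 0 = z * (1 : Mat V) i 0 := by
    intro i
    rw [hS', cj, inv_inv, mul_assoc, Matrix.mul_apply]
    simp only [hcol, mul_left_comm _ z, ← Finset.mul_sum, ← Matrix.mul_apply, Units.inv_mul]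
  have h00 : S' 0 0 = z := by simpa using hS0 0
  have h10 : S' 1 0 = 0 := by simpa using hS0 1
  have h11 : S' 1 1 = z' := by
    have := trace_cj g⁻¹ S
    rw [← hS', Matrix.trace_fin_two, ht, h00] at this
    exact add_left_cancel this
  have hc' : F' * S' = S' * F' := by rw [hF', hS', cj_mul_cj, cj_mul_cj, hcomm]
  have e10 := congrFun (congrFun hc' 1) 0
  have e01 := congrFun (congrFun hc' 0) 1
  simp only [Matrix.mul_apply, Fin.sum_univ_two, h00, h10, h11, mul_zero, zero_mul, add_zero,
    zero_add] at e10 e01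
  have hF10 : F' 1 0 = 0 := by
    rcases mul_eq_zero.mp (show F' 1 0 * (z - z') = 0 by linear_combination e10) with h | h
    · exact h
    · exact absurd (sub_eq_zero.mp h) hne
  refine ⟨g, F' 0 0, F' 1 1, S' 0 1, F' 0 1, ?_, by linear_combination -e01, ?_⟩
  · have eF : upT (F' 0 0) (F' 1 1) (F' 0 1) = F' := by
      ext i j; fin_cases i <;> fin_cases j <;> simp [upT, hF10]
    have eS : upT z z' (S' 0 1) = S' := by
      ext i j; fin_cases i <;> fin_cases j <;> simp [upT, h00, h10, h11]
    rw [up, eF, eS, hF', hS', ← cj_mul, ← cj_mul, mul_inv_cancel, cj_one, cj_one]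
  · rw [← det_cj g⁻¹ F, ← hF', Matrix.det_fin_two, hF10, mul_zero, sub_zero]

end DVR

end Fermat.Agent.RT.LocalRing
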