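import Fermat.Agent.RT.LocalRing.Eval
import Fermat.Agent.RT.LocalRing.Triangular
import Mathlib.RingTheory.MvPowerSeries.NoZeroDivisors

/-!
# Framed local rings of lifts at primes `q ≡ 1 (mod p)` with scalar residual Frobenius

The power series ring in the entries of `Φ_j - ε_j` and `Σ_j - 1` (and further free variables),
and the ideal of the relations `Φ Σ = Σ^n Φ`, `det Φ = q`, `det Σ = 1`, `tr Σ = z + z'`.
-/

set_option autoImplicit false

noncomputable section

namespace Fermat.Agent.RT.LocalRing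

open IsLocalRing Matrix

/-- Variables: the entries of the pairs of matrices, and further free variables. -/
abbrev Idx (J τ : Type) : Type := (J × Bool × Fin 2 × Fin 2) ⊕ τ

/-- The power series ring in the variables `Idx J τ`. -/
abbrev PSR (J τ O : Type) : Type := MvPowerSeries (Idx J τ) O

/-- The numerical data: `ε` the residual Frobenius scalar, `z, z'` the eigenvalues of inertia,
`q` the determinant of Frobenius. -/
structure Param (J O : Type) [CommRing O] [IsLocalRing O] where
  q : J → O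
  eps : J → O
  z : J → O
  z' : J → O
  c : J → O
  n : J → ℕ
  eps_sq : ∀ j, eps j * eps j = 1
  z_mul : ∀ j, z j * z' j = 1
  z_ne : ∀ j, z j ≠ z' j
  z_mem : ∀ j, z j - 1 ∈ maximalIdeal O
  q_eq : ∀ j, q j = 1 + (z j - z' j) * c j
  c_mem : ∀ j, c j ∈ maximalIdeal O
  z_pow : ∀ j, z j ^ n j = z j

section Defs

variable {J τ O : Type} [CommRing O] {B : Type} [CommRing B] [Algebra O B]

/-- The matrix of Frobenius at `j` with coordinates `v`, centred at `e`. -/
def phiOf (e : J → O) (v : Idx J τ → B) (j : J) : Mat B :=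
  algebraMap O B (e j) • (1 : Mat B) + Matrix.of fun a b => v (Sum.inl (j, false, a, b))

/-- The matrix of inertia at `j` with coordinates `v`, centred at `1`. -/
def sigOf (v : Idx J τ → B) (j : J) : Mat B :=
  (1 : Mat B) + Matrix.of fun a b => v (Sum.inl (j, true, a, b))

variable (J τ B) in
/-- A family of pairs of matrices and values of the free variables. -/
abbrev Cfg : Type := (J → Mat B × Mat B) × (τ → B)

/-- The coordinates of a family. -/
def coords (e : J → O) (x : Cfg J τ B) : Idx J τ → B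
  | Sum.inl (j, false, a, b) => ((x.1 j).1 - algebraMap O B (e j) • (1 : Mat B)) a b
  | Sum.inl (j, true, a, b) => ((x.1 j).2 - 1) a b
  | Sum.inr t => x.2 t

theorem phiOf_coords (e : J → O) (x : Cfg J τ B) (j : J) : phiOf e (coords e x) j = (x.1 j).1 := by
  ext a b
  simp [phiOf, coords]

theorem sigOf_coords (e : J → O) (x : Cfg J τ B) (j : J) :
    sigOf (coords e x) j = (x.1 j).2 := by
  ext a b
  simp [sigOf, coords]

/-- The family with given coordinates. -/
def cfgOf (e : J → O) (v : Idx J τ → B) : Cfg J τ B :=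
  (fun j => (phiOf e v j, sigOf v j), fun t => v (Sum.inr t))

theorem coords_cfgOf (e : J → O) (v : Idx J τ → B) : coords e (cfgOf e v) = v := by
  funext i
  rcases i with ⟨j, s, a, b⟩ | t
  · cases s <;> simp [coords, cfgOf, phiOf, sigOf]
  · rfl

variable {C : Type} [CommRing C] [Algebra O C]

/-- The image of a family under a homomorphism. -/
def mapCfg (f : B →ₐ[O] C) (x : Cfg J τ B) : Cfg J τ C :=
  (fun j => ((x.1 j).1.map f, (x.1 j).2.map f), fun t => f (x.2 t))

theorem map_coords (f : B →ₐ[O] C) (e : J → O) (x : Cfg J τ B) (i : Idx J τ) :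
    f (coords e x i) = coords e (mapCfg f x) i := by
  rcases i with ⟨j, s, a, b⟩ | t
  · cases s
    · rcases eq_or_ne a b with rfl | h <;> simp_all [coords, mapCfg]
    · rcases eq_or_ne a b with rfl | h <;> simp_all [coords, mapCfg]
  · rfl

theorem map_phiOf (f : B →ₐ[O] C) (e : J → O) (v : Idx J τ → B) (j : J) :
    (phiOf e v j).map f = phiOf e (f ∘ v) j := by
  ext a b
  rcases eq_or_ne a b with rfl | h <;> simp_all [phiOf]

theorem map_sigOf (f : B →ₐ[O] C) (v : Idx J τ → B) (j : J) :
    (sigOf v j).map f = sigOf (f ∘ v) j := by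
  ext a b
  rcases eq_or_ne a b with rfl | h <;> simp_all [sigOf]

theorem coords_mem [IsLocalRing B] {e : J → O} {x : Cfg J τ B}
    (h1 : ∀ j, MemMax ((x.1 j).1 - algebraMap O B (e j) • 1))
    (h2 : ∀ j, MemMax ((x.1 j).2 - (1 : B) • 1)) (h3 : ∀ t, x.2 t ∈ maximalIdeal B)
    (i : Idx J τ) : coords e x i ∈ maximalIdeal B := by
  rcases i with ⟨j, s, a, b⟩ | t
  · cases s
    · exact h1 j a b
    · simpa [coords] using h2 j a b
  · exact h3 t

end Defs

variable {J τ O : Type} [CommRing O] [IsLocalRing O] (d : Param J O)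

/-- The relations `Φ Σ = Σ^n Φ`, `det Φ = q`, `det Σ = 1`, `tr Σ = z + z'`. -/
def Satisfies {B : Type} [CommRing B] [Algebra O B] (v : Idx J τ → B) : Prop :=
  ∀ j, phiOf d.eps v j * sigOf v j = sigOf v j ^ d.n j * phiOf d.eps v j ∧
    (phiOf d.eps v j).det = algebraMap O B (d.q j) ∧ (sigOf v j).det = 1 ∧
    (sigOf v j).trace = algebraMap O B (d.z j + d.z' j)

variable (τ) in
/-- The ideal of relations. -/
def relIdeal : Ideal (PSR J τ O) :=
  Ideal.span (⋃ j, (Set.range fun ab : Fin 2 × Fin 2 =>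
      (phiOf d.eps MvPowerSeries.X j * sigOf MvPowerSeries.X j -
        sigOf MvPowerSeries.X j ^ d.n j * phiOf d.eps MvPowerSeries.X j : Mat (PSR J τ O))
          ab.1 ab.2) ∪
    {(phiOf d.eps MvPowerSeries.X j).det - algebraMap O (PSR J τ O) (d.q j),
      (sigOf MvPowerSeries.X j).det - 1,
      (sigOf MvPowerSeries.X j).trace - algebraMap O (PSR J τ O) (d.z j + d.z' j)})

theorem relIdeal_le_ker_iff {B : Type} [CommRing B] [Algebra O B]
    (F : PSR J τ O →ₐ[O] B) :
    relIdeal τ d ≤ RingHom.ker F ↔ Satisfies d (F ∘ MvPowerSeries.X) := by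
  have e : ∀ j, (phiOf d.eps MvPowerSeries.X j * sigOf MvPowerSeries.X j -
        sigOf MvPowerSeries.X j ^ d.n j * phiOf d.eps MvPowerSeries.X j : Mat (PSR J τ O)).map F =
      phiOf d.eps (F ∘ MvPowerSeries.X) j * sigOf (F ∘ MvPowerSeries.X) j -
        sigOf (F ∘ MvPowerSeries.X) j ^ d.n j * phiOf d.eps (F ∘ MvPowerSeries.X) j := fun j => by
    show F.toRingHom.mapMatrix _ = _
    rw [map_sub, map_mul, map_mul, map_pow, ← map_phiOf, ← map_sigOf]
    rfl
  have edet : ∀ M : Mat (PSR J τ O), F M.det = (M.map F).det := fun M => F.map_det M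
  have etr : ∀ M : Mat (PSR J τ O), F M.trace = (M.map F).trace :=
    fun M => AddMonoidHom.map_trace F.toRingHom.toAddMonoidHom M
  rw [relIdeal, Ideal.span_le]
  constructor
  · intro h j
    have h0 : ∀ x ∈ _, F x = 0 := fun x hx => h (Set.mem_iUnion_of_mem j hx)
    refine ⟨sub_eq_zero.mp ?_, ?_, ?_, ?_⟩
    · rw [← e j]
      ext a b
      exact h0 _ (Or.inl ⟨(a, b), rfl⟩)
    · have := h0 _ (Or.inr (Or.inl rfl))
      rwa [map_sub, edet, map_phiOf, F.commutes, sub_eq_zero] at this
    · have := h0 _ (Or.inr (Or.inr (Or.inl rfl)))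
      rwa [map_sub, edet, map_sigOf, map_one, sub_eq_zero] at this
    · have := h0 _ (Or.inr (Or.inr (Or.inr rfl)))
      rwa [map_sub, etr, map_sigOf, F.commutes, sub_eq_zero] at this
  · intro h x hx
    obtain ⟨j, hx⟩ := Set.mem_iUnion.mp hx
    obtain ⟨h1, h2, h3, h4⟩ := h j
    rw [SetLike.mem_coe, RingHom.mem_ker]
    rcases hx with ⟨⟨a, b⟩, rfl⟩ | rfl | rfl | rfl
    · exact (congrFun (congrFun (e j) a) b).trans (by rw [h1, sub_self]; rfl)
    · rw [map_sub, edet, map_phiOf, F.commutes, h2, sub_self]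
    · rw [map_sub, edet, map_sigOf, map_one, h3, sub_self]
    · rw [map_sub, etr, map_sigOf, F.commutes, h4, sub_self]

section Facts

variable {d} (j : J)

theorem Param.z'_mem : d.z' j - 1 ∈ maximalIdeal O := by
  have : d.z' j - 1 = -(d.z' j) * (d.z j - 1) := by linear_combination d.z_mul j
  rw [this]
  exact Ideal.mul_mem_left _ _ (d.z_mem j)

theorem Param.z'_pow : d.z' j ^ d.n j = d.z' j := by
  have h1 : d.z j * d.z' j ^ d.n j = 1 := by
    nth_rewrite 1 [← d.z_pow j]
    rw [← mul_pow, d.z_mul j, one_pow]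
  linear_combination (-(d.z' j ^ d.n j)) * d.z_mul j + d.z' j * h1

theorem Param.q_mem : d.q j - 1 ∈ maximalIdeal O := by
  rw [d.q_eq, add_sub_cancel_left]
  exact Ideal.mul_mem_left _ _ (d.c_mem j)

end Facts

section LocalTarget

variable {d} {B : Type} [CommRing B] [Algebra O B] [IsLocalRing B]
  [IsLocalHom (algebraMap O B)]

omit [IsLocalRing B] [IsLocalHom (algebraMap O B)] in
theorem algebraMap_eps_sq (j : J) :
    algebraMap O B (d.eps j) * algebraMap O B (d.eps j) = 1 := by
  rw [← map_mul, d.eps_sq, map_one]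

theorem algebraMap_sub_one_mem {x : O} (h : x - 1 ∈ maximalIdeal O) :
    algebraMap O B x - 1 ∈ maximalIdeal B := by
  rw [← map_one (algebraMap O B), ← map_sub]
  exact map_nonunit (algebraMap O B) _ h

theorem sub_eps_mem_of_mul_eq {j : J} {a a' : B} (ha : a - algebraMap O B (d.eps j) ∈ maximalIdeal B)
    (h : a * a' = algebraMap O B (d.q j)) : a' - algebraMap O B (d.eps j) ∈ maximalIdeal B := by
  set ε := algebraMap O B (d.eps j)
  have hε : ε * ε = 1 := algebraMap_eps_sq j
  have e : a' - ε = ε * (algebraMap O B (d.q j) - 1) - ε * a' * (a - ε) := by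
    linear_combination -a' * hε + ε * h
  rw [e]
  exact sub_mem (Ideal.mul_mem_left _ _ (algebraMap_sub_one_mem (d.q_mem j)))
    (Ideal.mul_mem_left _ _ ha)

/-- An upper triangular pair with residually scalar diagonal has small coordinates. -/
theorem memMax_up (g : (Mat B)ˣ) {c w w' a a' b y : B}
    (hw : w - 1 ∈ maximalIdeal B) (hw' : w' - 1 ∈ maximalIdeal B)
    (ha : a - c ∈ maximalIdeal B) (ha' : a' - c ∈ maximalIdeal B)
    (hb : b ∈ maximalIdeal B) (hy : y ∈ maximalIdeal B) :
    MemMax ((up g w w' a a' b y).1 - c • 1) ∧ MemMax ((up g w w' a a' b y).2 - (1 : B) • 1) :=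
  ⟨memMax_cj (memMax_upT ha ha' hy), memMax_cj (memMax_upT hw hw' hb)⟩

omit [IsLocalRing B] [IsLocalHom (algebraMap O B)] in
/-- An upper triangular pair satisfies the relations. -/
theorem satisfies_of_up [IsDomain B] {x : Cfg J τ B}
    (hne : ∀ j, algebraMap O B (d.z j) ≠ algebraMap O B (d.z' j))
    (h : ∀ j, ∃ (g : (Mat B)ˣ) (a a' b y : B),
      x.1 j = up g (algebraMap O B (d.z j)) (algebraMap O B (d.z' j)) a a' b y ∧
        (algebraMap O B (d.z j) - algebraMap O B (d.z' j)) * y = (a - a') * b ∧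
        a * a' = algebraMap O B (d.q j)) :
    Satisfies d (coords d.eps x) := by
  intro j
  obtain ⟨g, a, a', b, y, hx, hrel, hdet⟩ := h j
  rw [phiOf_coords, sigOf_coords, hx]
  have hd : (up g (algebraMap O B (d.z j)) (algebraMap O B (d.z' j)) a a' b y).2.det = 1 := by
    rw [up, det_cj, det_upT, ← map_mul, d.z_mul, map_one]
  have ht : (up g (algebraMap O B (d.z j)) (algebraMap O B (d.z' j)) a a' b y).2.trace =
      algebraMap O B (d.z j + d.z' j) := by
    rw [up, trace_cj, trace_upT, map_add]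
  refine ⟨?_, by rw [up, det_cj, det_upT, hdet], hd, ht⟩
  rw [pow_eq_self (hne j) (by rw [ht, map_add]) (by rw [hd, ← map_mul, d.z_mul, map_one])
      (by rw [← map_pow, d.z_pow]) (by rw [← map_pow, d.z'_pow])]
  exact fst_up_mul_snd_up g hrel

end LocalTarget

section Source

variable [Finite J] [Finite τ]

theorem isLocalHom_algebraMap_psr : IsLocalHom (algebraMap O (PSR J τ O)) :=
  ⟨fun c hc => by
    rw [MvPowerSeries.algebraMap_apply, MvPowerSeries.isUnit_iff_constantCoeff,
      MvPowerSeries.constantCoeff_C] at hc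
    simpa using hc⟩

omit [Finite J] [Finite τ] in
theorem X_mem_maximalIdeal (i : Idx J τ) :
    (MvPowerSeries.X i : PSR J τ O) ∈ maximalIdeal (PSR J τ O) := by
  rw [IsLocalRing.mem_maximalIdeal, mem_nonunits_iff, MvPowerSeries.isUnit_iff_constantCoeff,
    MvPowerSeries.constantCoeff_X]
  exact not_isUnit_zero

omit [Finite J] [Finite τ] in
theorem residue_psr_surjective :
    Function.Surjective (residue (PSR J τ O) ∘ algebraMap O (PSR J τ O)) := by
  intro x
  obtain ⟨f, rfl⟩ := residue_surjective x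
  refine ⟨MvPowerSeries.constantCoeff f, ?_⟩
  rw [Function.comp_apply, eq_comm, ← sub_eq_zero, ← map_sub, residue_eq_zero_iff,
    IsLocalRing.mem_maximalIdeal, mem_nonunits_iff, MvPowerSeries.isUnit_iff_constantCoeff,
    map_sub, MvPowerSeries.algebraMap_apply, MvPowerSeries.constantCoeff_C]
  simp

end Source

end Fermat.Agent.RT.LocalRing
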