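import Fermat.Agent.RT.LocalRing.Basic

/-!
# The generic fibre of the local ring with `z ≠ z'` has a single minimal prime

`K` is the kernel of one explicit split parametrisation. Every prime of characteristic zero
containing the relations contains `K`: points are dense, and each point is joined to the
parametrised ones by explicit one-parameter triangular deformations.
-/

set_option autoImplicit false

noncomputable section

namespace Fermat.Agent.RT.LocalRing

open IsLocalRing Matrix

variable {J τ O : Type} [CommRing O] [IsLocalRing O]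

/-- The parameter ring: `(u, a, e)` at each `j`, and the free variables. -/
abbrev Om (J τ O : Type) : Type := MvPowerSeries ((J × Fin 3) ⊕ τ) O

/-- The split pair attached to `(u, e, a₁)`: eigenlines `(1, u)` and `(e, 1 + ue)`. -/
def splitBase (d : Param J O) {A : Type} [CommRing A] [Algebra O A] (j : J) (u e a₁ : A) :
    Mat A × Mat A :=
  up (uL u * uU e) (algebraMap O A (d.z j)) (algebraMap O A (d.z' j))
    (algebraMap O A (d.eps j) * (1 + a₁))
    (algebraMap O A (d.eps j) * algebraMap O A (d.q j) * Ring.inverse (1 + a₁)) 0 0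

/-- The universal split family. -/
def omegaCfg (d : Param J O) : Cfg J τ (Om J τ O) :=
  (fun j => splitBase d j (MvPowerSeries.X (Sum.inl (j, 0))) (MvPowerSeries.X (Sum.inl (j, 2)))
      (MvPowerSeries.X (Sum.inl (j, 1))),
    fun t => MvPowerSeries.X (Sum.inr t))

section

variable {A B : Type} [CommRing A] [CommRing B] [Algebra O A] [Algebra O B] (d : Param J O)

theorem map_splitBase (f : A →ₐ[O] B) (j : J) (u e a₁ : A) (h : IsUnit (1 + a₁)) :
    ((splitBase d j u e a₁).1.map f, (splitBase d j u e a₁).2.map f) =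
      splitBase d j (f u) (f e) (f a₁) := by
  have hinv : f (Ring.inverse (1 + a₁)) = Ring.inverse (1 + f a₁) := by
    obtain ⟨v, hv⟩ := h
    have hv' : (1 : B) + f a₁ = Units.map f.toRingHom.toMonoidHom v := by
      simp [hv, map_add]
    rw [← hv, hv', Ring.inverse_unit, Ring.inverse_unit]
    rfl
  have hg : Units.map f.toRingHom.mapMatrix.toMonoidHom (uL u * uU e) = uL (f u) * uU (f e) := by
    rw [map_mul]
    congr 1 <;> ext a b <;> fin_cases a <;> fin_cases b <;> simp [uL, uU]
  simp only [splitBase, up]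
  refine Prod.ext ?_ ?_
  all_goals
    show Matrix.map (cj _ _) (f.toRingHom : A →+* B) = _
    rw [map_cj, hg, map_upT]
    simp [hinv]

end

variable [Finite J] [Finite τ]

theorem isUnit_one_add_X (j : J) :
    IsUnit (1 + (MvPowerSeries.X (Sum.inl (j, 1)) : Om J τ O)) := by
  rw [MvPowerSeries.isUnit_iff_constantCoeff, map_add, map_one, MvPowerSeries.constantCoeff_X,
    add_zero]
  exact isUnit_one

omit [Finite J] [Finite τ] in
theorem X_mem_om (i : (J × Fin 3) ⊕ τ) :
    (MvPowerSeries.X i : Om J τ O) ∈ maximalIdeal (Om J τ O) := by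
  rw [IsLocalRing.mem_maximalIdeal, mem_nonunits_iff, MvPowerSeries.isUnit_iff_constantCoeff,
    MvPowerSeries.constantCoeff_X]
  exact not_isUnit_zero

theorem isLocalHom_algebraMap_mv {σ : Type} : IsLocalHom (algebraMap O (MvPowerSeries σ O)) :=
  ⟨fun c hc => by
    rw [MvPowerSeries.algebraMap_apply, MvPowerSeries.isUnit_iff_constantCoeff,
      MvPowerSeries.constantCoeff_C] at hc
    simpa using hc⟩

omit [Finite J] [Finite τ] in
theorem splitBase_mem {A : Type} [CommRing A] [Algebra O A] [IsLocalRing A]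
    [IsLocalHom (algebraMap O A)] (d : Param J O) (j : J) {u e a₁ : A}
    (ha : a₁ ∈ maximalIdeal A) :
    MemMax ((splitBase d j u e a₁).1 - algebraMap O A (d.eps j) • 1) ∧
      MemMax ((splitBase d j u e a₁).2 - (1 : A) • 1) := by
  have h1 : algebraMap O A (d.eps j) * (1 + a₁) - algebraMap O A (d.eps j) ∈ maximalIdeal A := by
    rw [mul_add, mul_one, add_sub_cancel_left]
    exact Ideal.mul_mem_left _ _ ha
  refine memMax_up _ (algebraMap_sub_one_mem (d.z_mem j)) (algebraMap_sub_one_mem (Param.z'_mem j)) h1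
    (sub_eps_mem_of_mul_eq h1 ?_) (zero_mem _) (zero_mem _)
  have hu : IsUnit (1 + a₁) := isUnit_of_sub_mem (b := 1) (by simpa using ha) isUnit_one
  linear_combination (algebraMap O A (d.q j) * (1 + a₁) * Ring.inverse (1 + a₁)) *
    algebraMap_eps_sq (d := d) (B := A) j +
    algebraMap O A (d.q j) * Ring.mul_inverse_cancel _ hu

variable [IsAdicComplete (maximalIdeal O) O] (τ) (d : Param J O)

theorem exists_omegaHom : ∃ F : PSR J τ O →ₐ[O] Om J τ O,
    ∀ i, F (MvPowerSeries.X i) = coords d.eps (omegaCfg d) i := by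
  have := mvPowerSeries_isAdicComplete (O := O) (σ := (J × Fin 3) ⊕ τ)
  have := isLocalHom_algebraMap_mv (O := O) (σ := (J × Fin 3) ⊕ τ)
  have hmem : ∀ i, coords d.eps (omegaCfg (τ := τ) d) i ∈ maximalIdeal (Om J τ O) := by
    refine coords_mem (fun j => ?_) (fun j => ?_) (fun t => X_mem_om (Sum.inr t))
    · exact (splitBase_mem d j (X_mem_om (Sum.inl (j, 1)))).1
    · exact (splitBase_mem d j (X_mem_om (Sum.inl (j, 1)))).2
  exact exists_eval (L := O) (R := Om J τ O) (coords d.eps (omegaCfg (τ := τ) d)) hmem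

/-- The universal split parametrisation. -/
def omegaHom : PSR J τ O →ₐ[O] Om J τ O := (exists_omegaHom τ d).choose

theorem omegaHom_X (i : Idx J τ) :
    omegaHom τ d (MvPowerSeries.X i) = coords d.eps (omegaCfg d) i :=
  (exists_omegaHom τ d).choose_spec i

/-- The kernel of the universal split parametrisation. -/
def genPrime : Ideal (PSR J τ O) := RingHom.ker (omegaHom τ d)

section Killed

variable {τ} {V : Type} [CommRing V] [IsDomain V] [IsDiscreteValuationRing V]
  [IsAdicComplete (maximalIdeal V) V] [Algebra O V] [IsLocalHom (algebraMap O V)]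

/-- The point with the given coordinates kills `genPrime`. -/
def Killed (x : Cfg J τ V) : Prop :=
  ∀ F : PSR J τ O →ₐ[O] V, (∀ i, F (MvPowerSeries.X i) = coords d.eps x i) →
    genPrime τ d ≤ RingHom.ker F

/-- An admissible pair at `j`: a pair of matrices satisfying the relations over `V`. -/
def Adm (j : J) (p : Mat V × Mat V) : Prop :=
  MemMax (p.1 - algebraMap O V (d.eps j) • 1) ∧ MemMax (p.2 - (1 : V) • 1) ∧
    p.1 * p.2 = p.2 * p.1 ∧ p.1.det = algebraMap O V (d.q j) ∧ p.2.det = 1 ∧
    p.2.trace = algebraMap O V (d.z j) + algebraMap O V (d.z' j)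

/-- A base pair at `j`: split, with eigenlines reducing to the two standard lines. -/
def Base (j : J) (p : Mat V × Mat V) : Prop :=
  ∃ (g : (Mat V)ˣ) (a a' : V), (g : Mat V) 1 0 ∈ maximalIdeal V ∧
    (g : Mat V) 0 1 ∈ maximalIdeal V ∧ a * a' = algebraMap O V (d.q j) ∧
    a - algebraMap O V (d.eps j) ∈ maximalIdeal V ∧
    p = up g (algebraMap O V (d.z j)) (algebraMap O V (d.z' j)) a a' 0 0

theorem Base.memMax {j : J} {p : Mat V × Mat V} (h : Base d j p) :
    MemMax (p.1 - algebraMap O V (d.eps j) • 1) ∧ MemMax (p.2 - (1 : V) • 1) := by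
  obtain ⟨g, a, a', -, -, hdet, ha, rfl⟩ := h
  exact memMax_up g (algebraMap_sub_one_mem (d.z_mem j)) (algebraMap_sub_one_mem (Param.z'_mem j)) ha
    (sub_eps_mem_of_mul_eq ha hdet) (zero_mem _) (zero_mem _)

/-- Families of base pairs are specialisations of the universal split family. -/
theorem killed_of_base {x : Cfg J τ V} (hx : ∀ j, Base d j (x.1 j))
    (ht : ∀ t, x.2 t ∈ maximalIdeal V) : Killed d x := by
  intro F hF
  have := mvPowerSeries_isAdicComplete (O := O) (σ := (J × Fin 3) ⊕ τ)
  have := isLocalHom_algebraMap_mv (O := O) (σ := (J × Fin 3) ⊕ τ)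
  have hpar : ∀ j, ∃ u e a₁ : V, u ∈ maximalIdeal V ∧ e ∈ maximalIdeal V ∧
      a₁ ∈ maximalIdeal V ∧ x.1 j = splitBase d j u e a₁ := by
    intro j
    obtain ⟨g, a, a', h10, h01, hdet, ha, hp⟩ := hx j
    set p := (g : Mat V) 0 0
    set s := (g : Mat V) 0 1
    set r := (g : Mat V) 1 0
    set t := (g : Mat V) 1 1
    have hg : IsUnit (p * t - s * r) := by
      rw [← Matrix.det_fin_two]
      exact (Matrix.isUnit_iff_isUnit_det _).mp g.isUnit
    obtain ⟨hpu, -⟩ := isUnit_of_mul_sub hg (Ideal.mul_mem_left _ _ h10)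
    obtain ⟨P, hP⟩ := hpu
    set u := r * ((P⁻¹ : Vˣ) : V) with hu
    have hPP : p * ((P⁻¹ : Vˣ) : V) = 1 := by rw [← hP, Units.mul_inv]
    obtain ⟨D, hD⟩ : IsUnit (t - u * s) := by
      refine (IsUnit.mul_iff.mp (show IsUnit (p * (t - u * s)) from ?_)).2
      have : p * (t - u * s) = p * t - s * r := by
        rw [hu]; linear_combination (-(r * s)) * hPP
      rwa [this]
    have hDD : (t - u * s) * ((D⁻¹ : Vˣ) : V) = 1 := by rw [← hD, Units.mul_inv]
    set e := s * ((D⁻¹ : Vˣ) : V) with he
    set ε := algebraMap O V (d.eps j) with hεdef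
    have hε : ε * ε = 1 := algebraMap_eps_sq j
    refine ⟨u, e, ε * a - 1, Ideal.mul_mem_right _ _ h10, Ideal.mul_mem_right _ _ h01, ?_, ?_⟩
    · rw [show ε * a - 1 = ε * (a - ε) by linear_combination hε]
      exact Ideal.mul_mem_left _ _ ha
    have hgeq : g = uL u * uU e * uD P D := by
      ext i k
      fin_cases i <;> fin_cases k <;>
        simp only [Units.val_mul, uL, uU, uD, Matrix.mul_apply, Fin.sum_univ_two] <;> simp
      · exact hP.symm
      · show s = e * (D : V)
        rw [he, mul_assoc, Units.inv_mul, mul_one]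
      · show r = u * (P : V)
        rw [hu, mul_assoc, Units.inv_mul, mul_one]
      · show t = (u * e + 1) * (D : V)
        linear_combination (-1 : V) * hD - u * s * Units.inv_mul D
    have hone : (1 : V) + (ε * a - 1) = ε * a := by ring
    have hua : IsUnit a := isUnit_of_sub_mem ha (IsUnit.of_mul_eq_one _ hε)
    have ha' : a' = ε * algebraMap O V (d.q j) * Ring.inverse (ε * a) := by
      have hu2 : IsUnit (ε * a) := (IsUnit.of_mul_eq_one _ hε).mul hua
      apply hu2.mul_left_cancel
      rw [mul_comm (ε * algebraMap O V (d.q j)), ← mul_assoc, Ring.mul_inverse_cancel _ hu2,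
        one_mul, ← hdet, mul_assoc]
    rw [hp, hgeq, up_mul_uD, splitBase, hone, ← hεdef, ha',
      show ε * (ε * a) = a by rw [← mul_assoc, hε, one_mul]]
  choose u e a₁ hu he ha hpair using hpar
  obtain ⟨G, hG⟩ := exists_eval (L := O) (R := V)
    (Sum.elim (fun i : J × Fin 3 => ![u i.1, a₁ i.1, e i.1] i.2) x.2) (by
      rintro (⟨j, k⟩ | t)
      · fin_cases k <;> simp [hu j, he j, ha j]
      · exact ht t)
  have hmap : mapCfg G (omegaCfg d) = x := by
    refine Prod.ext (funext fun j => ?_) (funext fun t => ?_)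
    · show ((splitBase d j _ _ _).1.map G, (splitBase d j _ _ _).2.map G) = _
      rw [map_splitBase d G j _ _ _ (isUnit_one_add_X j), hG, hG, hG, hpair j]
      rfl
    · exact hG _
  have hGF : F = G.comp (omegaHom τ d) := by
    refine algHom_ext_X (fun i => ?_) fun i => ?_
    · rw [hF]
      exact coords_mem (fun j => (Base.memMax d (hx j)).1) (fun j => (Base.memMax d (hx j)).2) ht i
    · rw [hF, AlgHom.comp_apply, omegaHom_X, map_coords, hmap]
  intro p hp
  rw [RingHom.mem_ker, hGF, AlgHom.comp_apply, RingHom.mem_ker.mp hp, map_zero]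

variable {d} [DecidableEq J]

/-- The triangular deformation: if all nearby split pairs are killed, so is the triangular one. -/
theorem killed_update_up {x : Cfg J τ V} {j : J} (ht : ∀ t, x.2 t ∈ maximalIdeal V)
    (hx : ∀ i, i ≠ j → MemMax ((x.1 i).1 - algebraMap O V (d.eps i) • 1) ∧
      MemMax ((x.1 i).2 - (1 : V) • 1))
    (g : (Mat V)ˣ) {w w' a a' b y : V} (hne : w ≠ w')
    (hw : w - 1 ∈ maximalIdeal V) (hw' : w' - 1 ∈ maximalIdeal V)
    (ha : a - algebraMap O V (d.eps j) ∈ maximalIdeal V)
    (ha' : a' - algebraMap O V (d.eps j) ∈ maximalIdeal V)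
    (hb : b ∈ maximalIdeal V) (hy : y ∈ maximalIdeal V) (hrel : (w - w') * y = (a - a') * b)
    (hK : ∀ e ∈ maximalIdeal V,
      Killed d (Function.update x.1 j (up (g * uU e) w w' a a' 0 0), x.2)) :
    Killed d (Function.update x.1 j (up g w w' a a' b y), x.2) := by
  obtain ⟨ϖ, hϖ⟩ := IsDiscreteValuationRing.exists_irreducible V
  rw [hϖ.maximalIdeal_eq, Ideal.mem_span_singleton] at hb hy
  obtain ⟨b₁, rfl⟩ := hb
  obtain ⟨y₁, rfl⟩ := hy
  have hrel₁ : (w - w') * y₁ = (a - a') * b₁ :=
    mul_left_cancel₀ hϖ.ne_zero (by linear_combination hrel)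
  obtain ⟨i₀, v₀, hv₀⟩ :=
    IsDiscreteValuationRing.eq_unit_mul_pow_irreducible (sub_ne_zero.mpr hne.symm) hϖ
  have := mvPowerSeries_isAdicComplete (O := V) (σ := Unit)
  let T : MvPowerSeries Unit V := MvPowerSeries.X ()
  let c : V →+* MvPowerSeries Unit V := algebraMap V _
  let cc : V →ₐ[O] MvPowerSeries Unit V := IsScalarTower.toAlgHom O V _
  let gT : (Mat (MvPowerSeries Unit V))ˣ := Units.map c.mapMatrix.toMonoidHom g
  let xT : Cfg J τ (MvPowerSeries Unit V) :=
    (Function.update (fun i => ((x.1 i).1.map c, (x.1 i).2.map c)) j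
      (up gT (c w) (c w') (c a) (c a') (T * c b₁) (T * c y₁)), fun t => c (x.2 t))
  have : IsLocalHom (algebraMap V (MvPowerSeries Unit V)) :=
    isLocalHom_algebraMap_mv (O := V)
  have : IsLocalHom (algebraMap O (MvPowerSeries Unit V)) := by
    rw [IsScalarTower.algebraMap_eq O V (MvPowerSeries Unit V)]
    exact RingHom.isLocalHom_comp _ _
  have hcmem : ∀ v ∈ maximalIdeal V, c v ∈ maximalIdeal (MvPowerSeries Unit V) :=
    fun v hv => map_nonunit (algebraMap V _) v hv
  have hT : T ∈ maximalIdeal (MvPowerSeries Unit V) := by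
    rw [IsLocalRing.mem_maximalIdeal, mem_nonunits_iff, MvPowerSeries.isUnit_iff_constantCoeff,
      MvPowerSeries.constantCoeff_X]
    exact not_isUnit_zero
  have hsub : ∀ u : V, ∀ s : O, c u - algebraMap O (MvPowerSeries Unit V) s =
      c (u - algebraMap O V s) := fun u s => by
    rw [map_sub, IsScalarTower.algebraMap_apply O V (MvPowerSeries Unit V)]
  have hmemT : ∀ i, MemMax ((xT.1 i).1 - algebraMap O (MvPowerSeries Unit V) (d.eps i) • 1) ∧
      MemMax ((xT.1 i).2 - (1 : MvPowerSeries Unit V) • 1) := by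
    intro i
    by_cases hi : i = j
    · subst hi
      simp only [xT, Function.update_self]
      exact memMax_up gT (by simpa using hcmem _ hw) (by simpa using hcmem _ hw')
        (by rw [hsub]; exact hcmem _ ha) (by rw [hsub]; exact hcmem _ ha')
        (Ideal.mul_mem_right _ _ hT) (Ideal.mul_mem_right _ _ hT)
    · simp only [xT, Function.update_of_ne hi]
      constructor <;> intro k l
      · have h := hcmem _ ((hx i hi).1 k l)
        rw [Matrix.sub_apply, Matrix.smul_apply, smul_eq_mul, map_sub, map_mul,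
          Matrix.one_apply] at h
        rw [Matrix.sub_apply, Matrix.smul_apply, smul_eq_mul, Matrix.map_apply,
          IsScalarTower.algebraMap_apply O V (MvPowerSeries Unit V), Matrix.one_apply]
        rcases eq_or_ne k l with rfl | hkl
        · rw [if_pos rfl, map_one] at h
          rwa [if_pos rfl]
        · rw [if_neg hkl, map_zero] at h
          rwa [if_neg hkl]
      · have h := hcmem _ ((hx i hi).2 k l)
        rcases eq_or_ne k l with rfl | hkl
        · simpa using h
        · simpa [hkl] using h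
  obtain ⟨H, hH⟩ := exists_eval (L := O) (R := MvPowerSeries Unit V) (coords d.eps xT)
    (coords_mem (fun i => (hmemT i).1) (fun i => (hmemT i).2) fun t => hcmem _ (ht t))
  -- specialisation at `T = v`
  have hspec : ∀ (v : V) (E : MvPowerSeries Unit V →ₐ[V] V), E T = v →
      mapCfg (E.restrictScalars O) xT =
        (Function.update x.1 j (up g w w' a a' (v * b₁) (v * y₁)), x.2) := by
    intro v E hE
    have hEc : ∀ u, E (c u) = u := fun u => E.commutes u
    refine Prod.ext (funext fun i => ?_) (funext fun t => hEc _)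
    by_cases hi : i = j
    · subst hi
      simp only [mapCfg, xT, Function.update_self, up]
      have hgg : Units.map (E.toRingHom.mapMatrix).toMonoidHom gT = g := by
        ext k l
        exact hEc _
      refine Prod.ext ?_ ?_
      all_goals
        show Matrix.map (cj gT _) (E.toRingHom : MvPowerSeries Unit V →+* V) = _
        rw [map_cj, hgg, map_upT]
        simp [hEc, hE]
    · simp only [mapCfg, xT, Function.update_of_ne hi]
      refine Prod.ext ?_ ?_ <;> (ext k l; exact hEc _)
  intro F hF p hp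
  have hzero : H p = 0 := by
    refine powerSeries_eq_zero_of_eval hϖ (H p) (i₀ + 1) fun k hk E hE => ?_
    obtain ⟨l, rfl⟩ := Nat.exists_eq_add_of_le hk
    set e := ϖ ^ (l + 1) * ((v₀⁻¹ : Vˣ) : V) * b₁ with he
    have hem : e ∈ maximalIdeal V := by
      refine Ideal.mul_mem_right _ _ (Ideal.mul_mem_right _ _ ?_)
      rw [hϖ.maximalIdeal_eq, Ideal.mem_span_singleton]
      exact dvd_pow_self ϖ l.succ_ne_zero
    have h1 : e * (w' - w) = ϖ ^ (i₀ + 1 + l) * b₁ := by
      rw [he, hv₀]
      linear_combination (ϖ ^ (i₀ + 1 + l) * b₁) * Units.inv_mul v₀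
    have h2 : e * (a' - a) = ϖ ^ (i₀ + 1 + l) * y₁ := by
      refine mul_left_cancel₀ (sub_ne_zero.mpr hne.symm) ?_
      linear_combination (a' - a) * h1 + ϖ ^ (i₀ + 1 + l) * hrel₁
    refine RingHom.mem_ker.mp (hK e hem ((E.restrictScalars O).comp H) (fun i => ?_) hp)
    rw [AlgHom.comp_apply, hH, map_coords, hspec _ E hE, up_mul_uU, h1, h2]
  obtain ⟨E₁, hE₁⟩ := exists_eval (L := V) (R := V) (σ := Unit) (fun _ => ϖ) fun _ => by
    rw [hϖ.maximalIdeal_eq, Ideal.mem_span_singleton]
  have hF' : F = (E₁.restrictScalars O).comp H := by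
    refine algHom_ext_X (fun i => ?_) fun i => ?_
    · rw [hF]
      have hbm : ∀ v, ϖ * v ∈ maximalIdeal V := fun v => by
        rw [hϖ.maximalIdeal_eq, Ideal.mem_span_singleton]
        exact Dvd.intro _ rfl
      have hup := memMax_up g (c := algebraMap O V (d.eps j)) hw hw' ha ha' (hbm b₁) (hbm y₁)
      refine coords_mem
        (x := (Function.update x.1 j (up g w w' a a' (ϖ * b₁) (ϖ * y₁)), x.2))
        (fun i => ?_) (fun i => ?_) ht i
      · dsimp only
        by_cases hi : i = j
        · subst hi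
          rw [Function.update_self]
          exact hup.1
        · rw [Function.update_of_ne hi]
          exact (hx i hi).1
      · dsimp only
        by_cases hi : i = j
        · subst hi
          rw [Function.update_self]
          exact hup.2
        · rw [Function.update_of_ne hi]
          exact (hx i hi).2
    · rw [hF, AlgHom.comp_apply, hH, map_coords, hspec _ E₁ (hE₁ ())]
  rw [RingHom.mem_ker, hF', AlgHom.comp_apply, hzero, map_zero]

/-- If all families obtained from `x` by a base pair at `j` are killed, so are those obtained by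
an admissible pair. -/
theorem killed_update_of_adm (hinj : Function.Injective (algebraMap O V))
    {x : Cfg J τ V} {j : J} (ht : ∀ t, x.2 t ∈ maximalIdeal V)
    (hx : ∀ i, i ≠ j → MemMax ((x.1 i).1 - algebraMap O V (d.eps i) • 1) ∧
      MemMax ((x.1 i).2 - (1 : V) • 1))
    (hbase : ∀ p, Base d j p → Killed d (Function.update x.1 j p, x.2))
    {p : Mat V × Mat V} (hp : Adm d j p) : Killed d (Function.update x.1 j p, x.2) := by
  set zV := algebraMap O V (d.z j) with hzV
  set zV' := algebraMap O V (d.z' j) with hzV'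
  set ε := algebraMap O V (d.eps j) with hεV
  have hne : zV ≠ zV' := fun h => d.z_ne j (hinj h)
  have hz : zV - 1 ∈ maximalIdeal V := algebraMap_sub_one_mem (d.z_mem j)
  have hz' : zV' - 1 ∈ maximalIdeal V := algebraMap_sub_one_mem (Param.z'_mem j)
  have hzz : ∀ e : V, e * (zV' - zV) ∈ maximalIdeal V := fun e =>
    Ideal.mul_mem_left _ _ (by simpa using sub_mem hz' hz)
  -- split pairs in the basis `g`
  let Q : (Mat V)ˣ → Prop := fun g => ∀ a a' : V, a * a' = algebraMap O V (d.q j) →
    a - ε ∈ maximalIdeal V → Killed d (Function.update x.1 j (up g zV zV' a a' 0 0), x.2)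
  have hdetu : ∀ g : (Mat V)ˣ,
      IsUnit ((g : Mat V) 0 0 * (g : Mat V) 1 1 - (g : Mat V) 0 1 * (g : Mat V) 1 0) := fun g => by
    rw [← Matrix.det_fin_two]
    exact (Matrix.isUnit_iff_isUnit_det _).mp g.isUnit
  have stepA : ∀ g : (Mat V)ˣ, (g : Mat V) 1 0 ∈ maximalIdeal V →
      (g : Mat V) 0 1 ∈ maximalIdeal V → Q g :=
    fun g h1 h2 a a' h3 h4 => hbase _ ⟨g, a, a', h1, h2, h3, h4, rfl⟩
  -- move along the first line
  have move : ∀ (g₀ : (Mat V)ˣ), (∀ e ∈ maximalIdeal V, Q (g₀ * uU e)) →
      ∀ (e : V) (d₁ d₂ : Vˣ) (g : (Mat V)ˣ),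
        (g : Mat V) = ((g₀ * uU e * uD d₁ d₂ : (Mat V)ˣ) : Mat V) → Q g := by
    intro g₀ h₀ e d₁ d₂ g hg a a' hdet ha
    have ha' := sub_eps_mem_of_mul_eq ha hdet
    rw [Units.ext hg, up_mul_uD, up_mul_uU]
    refine killed_update_up ht hx g₀ hne hz hz' ha ha' (hzz e)
      (Ideal.mul_mem_left _ _ (by rw [← sub_sub_sub_cancel_right a' a ε]; exact sub_mem ha' ha)) (by ring) ?_
    exact fun e' he' => h₀ e' he' a a' hdet ha
  have stepB : ∀ g : (Mat V)ˣ, (g : Mat V) 1 0 ∈ maximalIdeal V → Q g := by
    intro g hr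
    obtain ⟨hp', -⟩ := isUnit_of_mul_sub (hdetu g) (Ideal.mul_mem_left _ _ hr)
    obtain ⟨P, hP⟩ := hp'
    set pp := (g : Mat V) 0 0 with hpp
    set s := (g : Mat V) 0 1 with hs
    set r := (g : Mat V) 1 0 with hrr
    set t := (g : Mat V) 1 1 with htt
    have hu : IsUnit (t - r * (s * ((P⁻¹ : Vˣ) : V))) := by
      refine (IsUnit.mul_iff.mp (show IsUnit (pp * (t - r * (s * ((P⁻¹ : Vˣ) : V)))) from ?_)).2
      have : pp * (t - r * (s * ((P⁻¹ : Vˣ) : V))) = pp * t - s * r := by
        rw [← hP]; linear_combination (-(r * s)) * Units.mul_inv P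
      rw [this]; exact hdetu g
    obtain ⟨D, hD⟩ := hu
    refine move (uM pp 0 r 1 (by rw [mul_one, zero_mul, sub_zero]; exact ⟨P, hP⟩)) ?_
      (s * ((P⁻¹ : Vˣ) : V) * ((D⁻¹ : Vˣ) : V)) 1 D g ?_
    · intro e he
      refine stepA _ ?_ ?_ <;>
        simp [Units.val_mul, uM_val, uU, Matrix.mul_apply, Fin.sum_univ_two,
          -IsLocalRing.mem_maximalIdeal, -mem_nonunits_iff]
      · exact hr
      · exact Ideal.mul_mem_left _ _ he
    · ext i k
      fin_cases i <;> fin_cases k <;>
        simp [Units.val_mul, uM_val, uU, uD, Matrix.mul_apply, Fin.sum_univ_two]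
      · exact hpp.symm
      · show s = _
        linear_combination (-s) * Units.mul_inv P + s * ((P⁻¹ : Vˣ) : V) * hP -
          (pp * s * ((P⁻¹ : Vˣ) : V)) * Units.inv_mul D
      · exact hrr.symm
      · show t = _
        linear_combination (-1 : V) * hD - (r * s * ((P⁻¹ : Vˣ) : V)) * Units.inv_mul D
  have stepC : ∀ g : (Mat V)ˣ, IsUnit ((g : Mat V) 1 1) → Q g := by
    intro g htu a a' hdet ha
    obtain ⟨T, hT⟩ := htu
    set pp := (g : Mat V) 0 0 with hpp
    set s := (g : Mat V) 0 1 with hs
    set r := (g : Mat V) 1 0 with hrr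
    set t := (g : Mat V) 1 1 with htt
    set f := r * ((T⁻¹ : Vˣ) : V) with hf
    have hu : IsUnit (pp - s * f) := by
      refine (IsUnit.mul_iff.mp (show IsUnit ((pp - s * f) * t) from ?_)).1
      have : (pp - s * f) * t = pp * t - s * r := by
        rw [hf, ← hT]; linear_combination (-(r * s)) * Units.inv_mul T
      rw [this]; exact hdetu g
    obtain ⟨D, hD⟩ := hu
    have h1 : IsUnit ((1 : V) * t - s * 0) := by
      rw [one_mul, mul_zero, sub_zero]; exact ⟨T, hT⟩
    have hgeq : g = uM 1 s 0 t h1 * uS V * uU (f * ((D⁻¹ : Vˣ) : V)) * uS V * uD D 1 := by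
      ext i k
      fin_cases i <;> fin_cases k <;>
        simp [Units.val_mul, uM_val, uU, uS, uD, Matrix.mul_apply, Fin.sum_univ_two]
      · show pp = _
        linear_combination (-1 : V) * hD - (s * f) * Units.inv_mul D
      · exact hs.symm
      · show r = _
        linear_combination (-(t * f)) * Units.inv_mul D - r * Units.mul_inv T +
          (r * ((T⁻¹ : Vˣ) : V)) * hT - t * hf
      · exact htt.symm
    have ha' := sub_eps_mem_of_mul_eq ha hdet
    rw [hgeq, up_mul_uD, up_mul_uS, up_mul_uU]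
    refine killed_update_up ht hx _ hne.symm hz' hz ha' ha
      (Ideal.mul_mem_left _ _ (by simpa using sub_mem hz hz'))
      (Ideal.mul_mem_left _ _ (by rw [← sub_sub_sub_cancel_right a a' ε]; exact sub_mem ha ha')) (by ring) fun e he => ?_
    rw [← up_mul_uS]
    refine stepB _ ?_ a a' hdet ha
    simp [Units.val_mul, uM_val, uU, uS, Matrix.mul_apply, Fin.sum_univ_two,
      -IsLocalRing.mem_maximalIdeal, -mem_nonunits_iff]
    exact Ideal.mul_mem_left _ _ he
  have stepD : ∀ g : (Mat V)ˣ, Q g := by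
    intro g
    by_cases htu : IsUnit ((g : Mat V) 1 1)
    · exact stepC g htu
    set pp := (g : Mat V) 0 0 with hpp
    set s := (g : Mat V) 0 1 with hs
    set r := (g : Mat V) 1 0 with hrr
    set t := (g : Mat V) 1 1 with htt
    have htm : t ∈ maximalIdeal V := (IsLocalRing.mem_maximalIdeal _).mpr htu
    have hru : IsUnit r := by
      have hsr : IsUnit (-(s * r)) := isUnit_of_sub_mem (b := pp * t - s * r)
        (by
          rw [show -(s * r) - (pp * t - s * r) = -(pp * t) by ring]
          exact neg_mem (Ideal.mul_mem_left _ _ htm)) (hdetu g)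
      exact (IsUnit.mul_iff.mp (IsUnit.neg_iff _ |>.mp hsr)).2
    obtain ⟨R, hR⟩ := hru
    obtain ⟨s', t', ht', hd2⟩ : ∃ s' t' : V, IsUnit t' ∧ IsUnit (pp * t' - s' * r) := by
      by_cases hpu : IsUnit pp
      · exact ⟨0, 1, isUnit_one, by simpa using hpu⟩
      · refine ⟨1, 1, isUnit_one, ?_⟩
        refine isUnit_of_sub_mem (b := -r) ?_ ⟨-R, by simp [hR]⟩
        simpa using (IsLocalRing.mem_maximalIdeal pp).mpr hpu
    obtain ⟨E, hE⟩ := hd2
    obtain ⟨G, hG⟩ := hdetu g
    set k₂ := (G : V) * ((E⁻¹ : Vˣ) : V) with hk₂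
    set k₁ := (t - t' * k₂) * ((R⁻¹ : Vˣ) : V) with hk₁
    refine move (uM pp s' r t' (by rw [← hE]; exact E.isUnit)) ?_
      (k₁ * ((E : V) * ((G⁻¹ : Vˣ) : V))) 1 (G * E⁻¹) g ?_
    · intro e he
      refine stepC _ ?_
      simp [Units.val_mul, uM_val, uU, Matrix.mul_apply, Fin.sum_univ_two]
      exact isUnit_of_sub_mem (by simpa using Ideal.mul_mem_left _ r he) ht'
    · have hcancel : (E : V) * ((G⁻¹ : Vˣ) : V) * ((G : V) * ((E⁻¹ : Vˣ) : V)) = 1 := by
        linear_combination (E : V) * ((E⁻¹ : Vˣ) : V) * Units.inv_mul G + Units.mul_inv E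
      have hk1r : k₁ * r = t - t' * k₂ := by
        rw [hk₁, ← hR, mul_assoc, Units.inv_mul, mul_one]
      have hk2E : k₂ * (pp * t' - s' * r) = pp * t - s * r := by
        rw [hk₂, ← hE, ← hG, mul_assoc, Units.inv_mul, mul_one]
      have hsr : s * r = (pp * k₁ + s' * k₂) * r := by
        linear_combination (-pp) * hk1r + hk2E
      have hs' : s = pp * k₁ + s' * k₂ :=
        mul_right_cancel₀ (show r ≠ 0 from hR ▸ R.ne_zero) hsr
      ext i k
      fin_cases i <;> fin_cases k <;>
        simp [Units.val_mul, uM_val, uU, uD, Matrix.mul_apply, Fin.sum_univ_two]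
      · exact hpp.symm
      · show s = _
        linear_combination hs' + s' * hk₂ - (pp * k₁) * hcancel
      · exact hrr.symm
      · show t = _
        linear_combination (-1 : V) * hk1r + t' * hk₂ - (r * k₁) * hcancel
  obtain ⟨h1, h2, hcomm, hdet, hSdet, hStr⟩ := hp
  obtain ⟨g, a, a', b, y, hup, hrel, haa⟩ := exists_up hne hcomm hStr
    (by rw [hSdet, hzV, hzV', ← map_mul, d.z_mul, map_one])
  have hdiag1 := (memMax_cj (g := g⁻¹) (M := p.1) (c := ε) h1)
  have hdiag2 := (memMax_cj (g := g⁻¹) (M := p.2) (c := (1 : V)) h2)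
  rw [show p.1 = (up g zV zV' a a' b y).1 from congrArg Prod.fst hup, up, ← cj_mul,
    inv_mul_cancel, cj_one] at hdiag1
  rw [show p.2 = (up g zV zV' a a' b y).2 from congrArg Prod.snd hup, up, ← cj_mul,
    inv_mul_cancel, cj_one] at hdiag2
  have ha : a - ε ∈ maximalIdeal V := by simpa [upT] using hdiag1 0 0
  have hy : y ∈ maximalIdeal V := by simpa [upT] using hdiag1 0 1
  have hb : b ∈ maximalIdeal V := by simpa [upT] using hdiag2 0 1
  rw [hdet] at haa
  rw [show p = up g zV zV' a a' b y from hup]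
  exact killed_update_up ht hx g hne hz hz' ha (sub_eps_mem_of_mul_eq ha haa) hb hy hrel
    fun e _ => stepD _ a a' haa ha

/-- Every admissible family is killed. -/
theorem killed_of_adm (hinj : Function.Injective (algebraMap O V)) {x : Cfg J τ V}
    (ht : ∀ t, x.2 t ∈ maximalIdeal V) (hx : ∀ j, Adm d j (x.1 j)) : Killed d x := by
  classical
  have hfin : Set.Finite (Set.univ : Set J) := Set.finite_univ
  suffices h : ∀ (s : Finset J) (y : J → Mat V × Mat V),
      (∀ j ∈ s, Adm d j (y j)) → (∀ j, j ∉ s → Base d j (y j)) → Killed d (y, x.2) from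
    h hfin.toFinset x.1 (fun j _ => hx j) (fun j hj => absurd (hfin.mem_toFinset.mpr trivial) hj)
  intro s
  induction s using Finset.induction_on with
  | empty => exact fun y _ hy => killed_of_base d (fun j => hy j (Finset.notMem_empty j)) ht
  | insert j s hj ih =>
    intro y hadm hy
    rw [show y = Function.update y j (y j) from (Function.update_eq_self j y).symm]
    refine killed_update_of_adm hinj (x := (y, x.2)) ht (fun i hi => ?_) (fun p hp => ?_)
      (hadm j (Finset.mem_insert_self j s))
    · by_cases his : i ∈ s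
      · exact ⟨(hadm i (Finset.mem_insert_of_mem his)).1,
          (hadm i (Finset.mem_insert_of_mem his)).2.1⟩
      · exact Base.memMax d (hy i (by simp [hi, his]))
    · refine ih _ (fun i hi => ?_) fun i hi => ?_
      · have : i ≠ j := fun e => hj (e ▸ hi)
        simpa [Function.update_of_ne this] using hadm i (Finset.mem_insert_of_mem hi)
      · rcases eq_or_ne i j with rfl | hij
        · simpa using hp
        · simpa [Function.update_of_ne hij] using hy i (by simp [hi, hij])

end Killed

/-- **Irreducibility of the generic fibre.** Every prime of characteristic zero containing the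
relations contains `genPrime`. -/
theorem genPrime_le {O : Type} [CommRing O] [IsDomain O] [IsDiscreteValuationRing O]
    [IsAdicComplete (maximalIdeal O) O] [Finite (ResidueField O)] [CharZero O]
    {J τ : Type} [Finite J] [Finite τ] (d : Param J O) {ϖ : O} (hϖ : Irreducible ϖ)
    (Q : Ideal (PSR J τ O)) [Q.IsPrime] (hrel : relIdeal τ d ≤ Q)
    (hQ : algebraMap O (PSR J τ O) ϖ ∉ Q) : genPrime τ d ≤ Q := by
  classical
  intro f hf
  by_contra hfQ
  have := mvPowerSeries_isAdicComplete (O := O) (σ := Idx J τ)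
  have := isLocalHom_algebraMap_psr (J := J) (τ := τ) (O := O)
  obtain ⟨V, _, _, _, _, _, _, hinj, φ, hQφ, hφf, hφm⟩ :=
    exists_point residue_psr_surjective hϖ Q hQ hfQ
  have hsat := (relIdeal_le_ker_iff d φ).mp (hrel.trans hQφ)
  let x : Cfg J τ V := cfgOf d.eps (φ ∘ MvPowerSeries.X)
  have hadm : ∀ j, Adm d j (x.1 j) := by
    intro j
    obtain ⟨h1, h2, h3, h4⟩ := hsat j
    refine ⟨fun a b => ?_, fun a b => ?_, ?_, h2, h3, by rw [← map_add]; exact h4⟩
    · simpa [x, cfgOf, phiOf] using hφm _ (X_mem_maximalIdeal (Sum.inl (j, false, a, b)))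
    · simpa [x, cfgOf, sigOf] using hφm _ (X_mem_maximalIdeal (Sum.inl (j, true, a, b)))
    · refine h1.trans ?_
      rw [pow_eq_self (fun h => d.z_ne j (hinj h)) (by rw [← map_add]; exact h4)
        (by rw [← map_mul, d.z_mul, map_one]; exact h3)
        (by rw [← map_pow, d.z_pow]) (by rw [← map_pow, d.z'_pow])]
      rfl
  refine hφf (RingHom.mem_ker.mp (killed_of_adm hinj (x := x) (fun t => ?_) hadm φ
    (fun i => ?_) hf))
  · exact hφm _ (X_mem_maximalIdeal _)
  · rw [coords_cfgOf]
    rfl

end Fermat.Agent.RT.LocalRing
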