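import Fermat.Agent.RT.Generators
import Fermat.Agent.EichlerShimura.FiniteDVR
import Fermat.Prelude.Sol.S_IsLocalRing_isAdicComplete_of_module_finite

/-!
# Power series over a complete local ring: completeness, evaluation, points

* `mvPowerSeries_isAdicComplete`: `O⟦X⟧` is complete at its maximal ideal;
* `algHom_ext_X`: local homomorphisms out of `O⟦X⟧` are determined by the variables;
* `powerSeries_eq_zero_of_eval`: a series in one variable vanishing at `ϖ^k` for `k` large is `0`;
* `exists_point`: characteristic zero primes are intersections of kernels of points.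
-/

set_option autoImplicit false

noncomputable section

namespace Fermat.Agent.RT.LocalRing

open IsLocalRing Fermat.Agent.Deformation

section Complete

variable {O : Type*} [CommRing O] [IsLocalRing O] {σ : Type*}

theorem coeff_mem_of_mem_maximalIdeal_pow {n : ℕ} {f : MvPowerSeries σ O}
    (hf : f ∈ maximalIdeal (MvPowerSeries σ O) ^ n) (d : σ →₀ ℕ) :
    MvPowerSeries.coeff d f ∈ maximalIdeal O ^ (n - d.degree) := by
  classical
  induction n generalizing f d with
  | zero => simp
  | succ n ih =>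
    rw [pow_succ'] at hf
    revert d
    refine Submodule.mul_induction_on hf ?_ ?_
    · intro a ha b hb d
      rw [MvPowerSeries.coeff_mul]
      refine Ideal.sum_mem _ fun x hx => ?_
      have hd : x.1.degree + x.2.degree = d.degree := by
        rw [← Finset.HasAntidiagonal.mem_antidiagonal.mp hx, map_add]
      have ha' : MvPowerSeries.coeff x.1 a ∈ maximalIdeal O ^ (1 - x.1.degree) := by
        rcases Nat.eq_zero_or_pos x.1.degree with h0 | h0
        · rw [h0, (Finsupp.degree_eq_zero_iff _).mp h0, MvPowerSeries.coeff_zero_eq_constantCoeff,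
            Nat.sub_zero, pow_one, IsLocalRing.mem_maximalIdeal]
          exact fun hu => (IsLocalRing.mem_maximalIdeal a).mp ha
            (MvPowerSeries.isUnit_iff_constantCoeff.mpr hu)
        · rw [Nat.sub_eq_zero_of_le h0, pow_zero, Ideal.one_eq_top]
          exact Submodule.mem_top
      have h := Ideal.mul_mem_mul ha' (ih hb x.2)
      rw [← pow_add] at h
      exact Ideal.pow_le_pow_right (by omega) h
    · intro a b ha hb d
      rw [map_add]
      exact add_mem (ha d) (hb d)

variable [Finite σ]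

theorem mem_maximalIdeal_pow_of_coeff {n : ℕ} {f : MvPowerSeries σ O}
    (hf : ∀ d : σ →₀ ℕ, MvPowerSeries.coeff d f ∈ maximalIdeal O ^ (n - d.degree)) :
    f ∈ maximalIdeal (MvPowerSeries σ O) ^ n := by
  classical
  have hX : ∀ i : σ, (MvPowerSeries.X i : MvPowerSeries σ O) ∈ maximalIdeal _ := fun i => by
    rw [IsLocalRing.mem_maximalIdeal, mem_nonunits_iff, MvPowerSeries.isUnit_iff_constantCoeff,
      MvPowerSeries.constantCoeff_X]
    exact not_isUnit_zero
  have hC : (maximalIdeal O).map (algebraMap O (MvPowerSeries σ O)) ≤ maximalIdeal _ :=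
    Ideal.map_le_iff_le_comap.mpr fun c hc => by
      rw [Ideal.mem_comap, IsLocalRing.mem_maximalIdeal, mem_nonunits_iff,
        MvPowerSeries.isUnit_iff_constantCoeff, MvPowerSeries.algebraMap_apply,
        MvPowerSeries.constantCoeff_C]
      exact hc
  have hvar : varsIdeal σ O ≤ maximalIdeal _ := Ideal.span_le.mpr (by rintro _ ⟨i, rfl⟩; exact hX i)
  rw [← sub_add_cancel f (MvPowerSeries.truncTotal n f : MvPowerSeries σ O)]
  refine add_mem (Ideal.pow_right_mono hvar n (sub_truncTotal_mem f n)) ?_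
  rw [← MvPolynomial.support_sum_monomial_coeff (MvPowerSeries.truncTotal n f)]
  rw [← MvPolynomial.coeToMvPowerSeries.ringHom_apply, map_sum]
  refine Ideal.sum_mem _ fun d _ => ?_
  rw [MvPowerSeries.coeff_truncTotal_eq_ite]
  split_ifs with hd
  · rw [MvPolynomial.monomial_eq, map_mul, Finsupp.prod, map_prod]
    simp only [MvPolynomial.coeToMvPowerSeries.ringHom_apply, MvPolynomial.coe_C,
      MvPolynomial.coe_pow, MvPolynomial.coe_X]
    have h1 : (MvPowerSeries.C (MvPowerSeries.coeff d f) : MvPowerSeries σ O) ∈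
        maximalIdeal _ ^ (n - d.degree) := by
      have := Ideal.mem_map_of_mem (algebraMap O (MvPowerSeries σ O)) (hf d)
      rw [Ideal.map_pow] at this
      simpa [MvPowerSeries.algebraMap_apply] using Ideal.pow_right_mono hC _ this
    have h2 : ∏ i ∈ d.support, (MvPowerSeries.X i : MvPowerSeries σ O) ^ d i ∈
        maximalIdeal _ ^ d.degree := by
      have := Ideal.prod_mem_prod (s := d.support) (I := fun i => maximalIdeal _ ^ d i)
        (x := fun i => (MvPowerSeries.X i : MvPowerSeries σ O) ^ d i)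
        fun i _ => Ideal.pow_mem_pow (hX i) _
      rwa [Finset.prod_pow_eq_pow_sum] at this
    have h := Ideal.mul_mem_mul h1 h2
    rw [← pow_add, Nat.sub_add_cancel hd.le] at h
    exact h
  · simp

/-- A power series ring over a complete local ring is complete at its maximal ideal. -/
theorem mvPowerSeries_isAdicComplete [IsAdicComplete (maximalIdeal O) O] :
    IsAdicComplete (maximalIdeal (MvPowerSeries σ O)) (MvPowerSeries σ O) where
  haus' f hf := by
    refine MvPowerSeries.ext fun d => IsHausdorff.haus' (I := maximalIdeal O) (M := O) _ fun k => ?_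
    have h := hf (k + d.degree)
    rw [SModEq.zero, smul_eq_mul, Ideal.mul_top] at h ⊢
    exact Ideal.pow_le_pow_right (by omega) (coeff_mem_of_mem_maximalIdeal_pow h d)
  prec' f hf := by
    have hstep : ∀ {k l}, k ≤ l → ∀ d : σ →₀ ℕ,
        MvPowerSeries.coeff d (f k) - MvPowerSeries.coeff d (f l) ∈
          maximalIdeal O ^ (k - d.degree) := by
      intro k l hkl d
      have h := hf hkl
      rw [SModEq.sub_mem, smul_eq_mul, Ideal.mul_top] at h
      rw [← map_sub]
      exact coeff_mem_of_mem_maximalIdeal_pow h d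
    have hlim : ∀ d : σ →₀ ℕ, ∃ L : O, ∀ n,
        MvPowerSeries.coeff d (f (n + d.degree)) - L ∈ maximalIdeal O ^ n := by
      intro d
      obtain ⟨L, hL⟩ := IsPrecomplete.prec' (I := maximalIdeal O) (M := O)
        (fun n => MvPowerSeries.coeff d (f (n + d.degree))) (fun {m n} hmn => by
          rw [SModEq.sub_mem, smul_eq_mul, Ideal.mul_top]
          have h := hstep (Nat.add_le_add_right hmn d.degree) d
          rwa [Nat.add_sub_cancel] at h)
      refine ⟨L, fun n => ?_⟩
      have h := hL n
      rwa [SModEq.sub_mem, smul_eq_mul, Ideal.mul_top] at h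
    choose L hL using hlim
    refine ⟨((fun d => L d) : MvPowerSeries σ O), fun k => ?_⟩
    show f k ≡ (show MvPowerSeries σ O from fun d => L d) [SMOD _]
    rw [SModEq.sub_mem, smul_eq_mul, Ideal.mul_top]
    refine mem_maximalIdeal_pow_of_coeff fun d => ?_
    rw [map_sub]
    show MvPowerSeries.coeff d (f k) - L d ∈ _
    rcases le_total d.degree k with h | h
    · have := hL d (k - d.degree)
      rwa [Nat.sub_add_cancel h] at this
    · rw [Nat.sub_eq_zero_of_le h, pow_zero, Ideal.one_eq_top]
      exact Submodule.mem_top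

end Complete

section Hom

variable {O : Type*} [CommRing O] {σ : Type*} [Finite σ]
  {A : Type*} [CommRing A] [IsLocalRing A] [IsAdicComplete (maximalIdeal A) A] [Algebra O A]

/-- Homomorphisms out of `O⟦X⟧` sending the variables into the maximal ideal are determined by
the images of the variables. -/
theorem algHom_ext_X {F G : MvPowerSeries σ O →ₐ[O] A}
    (hF : ∀ i, F (MvPowerSeries.X i) ∈ maximalIdeal A)
    (h : ∀ i, F (MvPowerSeries.X i) = G (MvPowerSeries.X i)) : F = G := by
  refine AlgHom.ext fun p => sub_eq_zero.mp (IsHausdorff.haus' (I := maximalIdeal A) (M := A) _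
    fun n => ?_)
  rw [SModEq.zero, smul_eq_mul, Ideal.mul_top, ← Ideal.Quotient.mk_eq_mk_iff_sub_mem]
  have hle : ∀ H : MvPowerSeries σ O →ₐ[O] A, (∀ i, H (MvPowerSeries.X i) ∈ maximalIdeal A) →
      varsIdeal σ O ^ n ≤ RingHom.ker ((Ideal.Quotient.mkₐ O (maximalIdeal A ^ n)).comp H) := by
    intro H hH z hz
    rw [RingHom.mem_ker, AlgHom.comp_apply]
    refine Ideal.Quotient.eq_zero_iff_mem.mpr (Ideal.pow_right_mono ?_ n
      (Ideal.map_pow H _ n ▸ Ideal.mem_map_of_mem H hz))
    rw [Ideal.map_span, Ideal.span_le]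
    rintro _ ⟨_, ⟨i, rfl⟩, rfl⟩
    exact hH i
  exact AlgHom.congr_fun (algHom_ext_of_pow_le_ker n (hle F hF) (hle G fun i => h i ▸ hF i)
    fun i => congrArg (Ideal.Quotient.mk _) (h i)) p

end Hom

section OneVariable

variable {V : Type*} [CommRing V] [IsDomain V] [IsDiscreteValuationRing V]
  [IsAdicComplete (maximalIdeal V) V]

/-- A power series in one variable which vanishes at all sufficiently high powers of a
uniformiser is zero. -/
theorem powerSeries_eq_zero_of_eval {ϖ : V} (hϖ : Irreducible ϖ) (g : PowerSeries V) (N : ℕ)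
    (h : ∀ k, N ≤ k → ∀ F : MvPowerSeries Unit V →ₐ[V] V,
      F (MvPowerSeries.X ()) = ϖ ^ k → F g = 0) : g = 0 := by
  have hmem : ∀ k, 1 ≤ k → ϖ ^ k ∈ maximalIdeal V := fun k hk => by
    rw [hϖ.maximalIdeal_eq, Ideal.mem_span_singleton]
    exact dvd_pow_self ϖ (by omega)
  have hne : ∀ k, ϖ ^ k ≠ 0 := fun k => pow_ne_zero k hϖ.ne_zero
  refine PowerSeries.ext fun j => ?_
  rw [map_zero]
  induction j using Nat.strong_induction_on with
  | _ j ih =>
    obtain ⟨g₁, hg₁⟩ := (PowerSeries.X_pow_dvd_iff (n := j) (φ := g)).mpr fun m hm => ih m hm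
    have hc : PowerSeries.coeff j g = PowerSeries.constantCoeff g₁ := by
      rw [hg₁, PowerSeries.coeff_X_pow_mul', if_pos le_rfl, Nat.sub_self,
        PowerSeries.coeff_zero_eq_constantCoeff_apply]
    rw [hc]
    refine IsHausdorff.haus' (I := maximalIdeal V) (M := V) _ fun n => ?_
    rw [SModEq.zero, smul_eq_mul, Ideal.mul_top]
    obtain ⟨F, hF⟩ := exists_eval (L := V) (R := V) (σ := Unit)
      (fun _ => ϖ ^ (N + n + 1)) (fun _ => hmem _ (by omega))
    have hFX : F (PowerSeries.X : PowerSeries V) = ϖ ^ (N + n + 1) := hF ()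
    have h0 : F g₁ = 0 := by
      have hg := h (N + n + 1) (by omega) F (hF ())
      rw [hg₁] at hg
      have hm : F (PowerSeries.X ^ j * g₁) = F PowerSeries.X ^ j * F g₁ := by
        rw [← map_pow, ← map_mul]
      rw [hm, hFX] at hg
      exact (mul_eq_zero.mp hg).resolve_left (pow_ne_zero _ (hne _))
    obtain ⟨g₂, hg₂⟩ : PowerSeries.X ∣ g₁ - PowerSeries.C (PowerSeries.constantCoeff g₁) := by
      rw [PowerSeries.X_dvd_iff]; simp
    have hsplit : F g₁ = ϖ ^ (N + n + 1) * F g₂ + PowerSeries.constantCoeff g₁ := by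
      conv_lhs => rw [sub_eq_iff_eq_add.mp hg₂]
      have hC : F (PowerSeries.C (PowerSeries.constantCoeff g₁)) = PowerSeries.constantCoeff g₁ :=
        (AlgHom.commutes F _)
      rw [← hFX]
      refine (map_add F _ _).trans ?_
      rw [hC]
      exact congrArg (· + _) (map_mul F _ _)
    rw [h0, eq_comm, add_eq_zero_iff_neg_eq, eq_comm] at hsplit
    rw [hsplit]
    refine neg_mem (Ideal.mul_mem_right _ _ ?_)
    rw [hϖ.maximalIdeal_eq, Ideal.span_singleton_pow, Ideal.mem_span_singleton]
    exact pow_dvd_pow ϖ (by omega)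

end OneVariable

section Points

variable {O : Type} [CommRing O] [IsDomain O] [IsDiscreteValuationRing O]
  [IsAdicComplete (maximalIdeal O) O] [Finite (ResidueField O)] [CharZero O]
  {P : Type} [CommRing P] [IsNoetherianRing P] [IsLocalRing P] [Algebra O P]
  [IsLocalHom (algebraMap O P)]

/-- In a noetherian local domain, if every nonzero prime contains `g ≠ 0` then there is only one
nonzero prime. -/
theorem eq_maximalIdeal_of_forall_mem {D : Type*} [CommRing D] [IsDomain D] [IsNoetherianRing D]
    [IsLocalRing D] {g : D} (hg : g ≠ 0) (h : ∀ p : Ideal D, p.IsPrime → p ≠ ⊥ → g ∈ p)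
    (p : Ideal D) [p.IsPrime] (hp : p ≠ ⊥) : p = maximalIdeal D := by
  classical
  have key : maximalIdeal D = ⊥ ∨ (maximalIdeal D).height ≤ 1 := by
    by_cases hm : maximalIdeal D = ⊥
    · exact Or.inl hm
    refine Or.inr ?_
    have hfin := (Ideal.span {g}).finite_minimalPrimes_of_isNoetherianRing
    have hsub : ((maximalIdeal D : Ideal D) : Set D) ⊆
        ⋃ q ∈ (↑(insert ⊥ hfin.toFinset) : Set (Ideal D)), (q : Set D) := by
      intro x hx
      simp only [Set.mem_iUnion, exists_prop, SetLike.mem_coe, Finset.coe_insert,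
        Set.Finite.coe_toFinset, Set.mem_insert_iff]
      by_cases hx0 : x = 0
      · exact ⟨⊥, Or.inl rfl, hx0 ▸ zero_mem _⟩
      have hxu : Ideal.span {x} ≠ ⊤ := fun ht => by
        rw [Ideal.span_singleton_eq_top] at ht
        exact hx ht
      obtain ⟨p', hp'⟩ := Ideal.nonempty_minimalPrimes hxu
      have := hp'.isPrime
      have hp'0 : p' ≠ ⊥ := fun h0 => hx0 (by simpa [h0] using hp'.le (Ideal.mem_span_singleton_self x))
      obtain ⟨q, hq, hqp⟩ := Ideal.exists_minimalPrimes_le
        ((Ideal.span_singleton_le_iff_mem (I := p')).mpr (h p' this hp'0))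
      have := hq.isPrime
      refine ⟨q, Or.inr hq, ?_⟩
      · rcases eq_or_lt_of_le hqp with rfl | hlt
        · exact hp'.le (Ideal.mem_span_singleton_self x)
        exfalso
        have h1 := Ideal.height_le_one_of_isPrincipal_of_mem_minimalPrimes (Ideal.span {x}) p' hp'
        have hq1 : (⊥ : Ideal D) < q := bot_lt_iff_ne_bot.mpr fun h0 =>
          hg (by simpa [h0] using hq.le (Ideal.mem_span_singleton_self g))
        have h2 := Ideal.height_strict_mono_of_isPrime hq1
        have h3 := Ideal.height_strict_mono_of_isPrime hlt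
        have h4 : q.height < 1 := lt_of_lt_of_le h3 h1
        rw [Order.lt_one_iff] at h4
        exact absurd (h4 ▸ h2) (not_lt.mpr zero_le)
    obtain ⟨q, hq, hle⟩ := (Ideal.subset_union_prime ⊥ ⊥ (s := insert ⊥ hfin.toFinset)
      (f := id) (fun i hi hne _ => by
        rcases Finset.mem_insert.mp hi with rfl | hi
        · exact absurd rfl hne
        · exact (hfin.mem_toFinset.mp hi).isPrime)).mp hsub
    rcases Finset.mem_insert.mp hq with rfl | hq
    · exact absurd (le_bot_iff.mp hle) hm
    · have hq' := hfin.mem_toFinset.mp hq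
      have := hq'.isPrime
      have heq : maximalIdeal D = q :=
        (maximalIdeal.isMaximal D).eq_of_le hq'.isPrime.ne_top hle
      rw [heq]
      exact Ideal.height_le_one_of_isPrincipal_of_mem_minimalPrimes _ q hq'
  rcases eq_or_lt_of_le (IsLocalRing.le_maximalIdeal ‹p.IsPrime›.ne_top) with h' | h'
  · exact h'
  exfalso
  rcases key with hm | hm
  · exact not_lt_bot (hm ▸ h')
  · have h2 := Ideal.height_strict_mono_of_isPrime (bot_lt_iff_ne_bot.mpr hp)
    have h4 : p.height < 1 := lt_of_lt_of_le (Ideal.height_strict_mono_of_isPrime h') hm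
    rw [Order.lt_one_iff] at h4
    exact absurd (h4 ▸ h2) (not_lt.mpr zero_le)

/-- A prime of characteristic zero is separated from any element outside it by a point with
values in a finite extension of `O`. -/
theorem exists_point (hres : Function.Surjective (residue P ∘ algebraMap O P))
    {ϖ : O} (hϖ : Irreducible ϖ) (Q : Ideal P) [Q.IsPrime] (hQ : algebraMap O P ϖ ∉ Q)
    {f : P} (hf : f ∉ Q) :
    ∃ (V : Type) (_ : CommRing V) (_ : IsDomain V) (_ : IsDiscreteValuationRing V)
      (_ : IsAdicComplete (maximalIdeal V) V) (_ : Algebra O V) (_ : IsLocalHom (algebraMap O V)),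
      Function.Injective (algebraMap O V) ∧ ∃ φ : P →ₐ[O] V,
        Q ≤ RingHom.ker φ ∧ φ f ≠ 0 ∧ ∀ x ∈ maximalIdeal P, φ x ∈ maximalIdeal V := by
  classical
  let S : Set (Ideal P) := {q | q.IsPrime ∧ Q ≤ q ∧ f * algebraMap O P ϖ ∉ q}
  have hQS : Q ∈ S := ⟨‹Q.IsPrime›, le_rfl, fun h =>
    (‹Q.IsPrime›.mem_or_mem h).elim hf hQ⟩
  obtain ⟨Q₁, ⟨hQ₁p, hQQ₁, hQ₁⟩, hmax⟩ :=
    set_has_maximal_iff_noetherian.mpr (inferInstance : IsNoetherianRing P) S ⟨Q, hQS⟩
  have := hQ₁p
  let D := P ⧸ Q₁
  have : IsLocalRing D := .of_surjective' (Ideal.Quotient.mk Q₁) Ideal.Quotient.mk_surjective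
  let π : P →+* D := Ideal.Quotient.mk Q₁
  have hπ : Function.Surjective π := Ideal.Quotient.mk_surjective
  have : IsLocalHom π := IsLocalHom.of_surjective π hπ
  have : IsLocalHom (Ideal.Quotient.mk Q₁) := IsLocalHom.of_surjective π hπ
  have hone : ∀ p : Ideal D, p.IsPrime → p ≠ ⊥ → π (f * algebraMap O P ϖ) ∈ p := by
    intro p hp hp0
    by_contra hg
    have hlt : Q₁ < p.comap π := by
      refine lt_of_le_of_ne (fun x hx => ?_) fun heq => hp0 ?_
      · rw [Ideal.mem_comap, Ideal.Quotient.eq_zero_iff_mem.mpr hx]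
        exact zero_mem p
      · rw [← Ideal.map_comap_of_surjective π hπ p, ← heq, Ideal.map_quotient_self]
    exact hmax (p.comap π) ⟨hp.comap π, hQQ₁.trans hlt.le, hg⟩ hlt
  have hϖD : algebraMap O D ϖ ≠ 0 := by
    rw [IsScalarTower.algebraMap_apply O P D, Ideal.Quotient.algebraMap_eq, ne_eq,
      Ideal.Quotient.eq_zero_iff_mem]
    exact fun h => hQ₁ (Ideal.mul_mem_left Q₁ f h)
  have hrad : maximalIdeal D ≤ (Ideal.span {algebraMap O D ϖ}).radical := by
    rw [Ideal.radical_eq_sInf]
    refine le_sInf fun p hp => ?_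
    have := hp.2
    exact (eq_maximalIdeal_of_forall_mem (fun h => hQ₁ (Ideal.Quotient.eq_zero_iff_mem.mp h)) hone p fun h0 => hϖD (by
      simpa [h0] using hp.1 (Ideal.mem_span_singleton_self _))).ge
  obtain ⟨N, hN⟩ := Ideal.exists_pow_le_of_le_radical_of_fg hrad (IsNoetherian.noetherian _)
  have hres' : ∀ x : D, ∃ c : O, x - algebraMap O D c ∈ maximalIdeal D := by
    intro x
    obtain ⟨y, rfl⟩ := hπ x
    obtain ⟨c, hc⟩ := hres (residue P y)
    rw [Function.comp_apply, eq_comm, ← sub_eq_zero, ← map_sub, residue_eq_zero_iff] at hc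
    refine ⟨c, ?_⟩
    rw [IsScalarTower.algebraMap_apply O P D, Ideal.Quotient.algebraMap_eq, ← map_sub]
    rw [IsLocalRing.mem_maximalIdeal, mem_nonunits_iff] at hc ⊢
    intro hu
    exact hc (isUnit_of_map_unit π _ hu)
  -- finitely many elements span `D` over `O` modulo `ϖ`
  have hgen : ∀ k : ℕ, ∃ s : Finset D, ∀ x : D,
      ∃ y ∈ Submodule.span O (s : Set D), x - y ∈ maximalIdeal D ^ k := by
    intro k
    induction k with
    | zero => exact ⟨∅, fun x => ⟨0, zero_mem _, by simp⟩⟩
    | succ k ih =>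
      obtain ⟨s, hs⟩ := ih
      obtain ⟨t, ht⟩ := (IsNoetherian.noetherian (maximalIdeal D ^ k))
      refine ⟨s ∪ t, fun x => ?_⟩
      obtain ⟨y, hy, hxy⟩ := hs x
      have hsub : ∀ z ∈ maximalIdeal D ^ k, ∃ y ∈ Submodule.span O (t : Set D),
          z - y ∈ maximalIdeal D ^ (k + 1) := by
        intro z hz
        rw [← ht] at hz
        induction hz using Submodule.span_induction with
        | mem z hz => exact ⟨z, Submodule.subset_span hz, by simp⟩
        | zero => exact ⟨0, zero_mem _, by simp⟩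
        | add a b _ _ ha hb =>
          obtain ⟨ya, hya, ha⟩ := ha
          obtain ⟨yb, hyb, hb⟩ := hb
          exact ⟨ya + yb, add_mem hya hyb, by rw [add_sub_add_comm]; exact add_mem ha hb⟩
        | smul a z hz ih =>
          obtain ⟨yz, hyz, hz'⟩ := ih
          obtain ⟨c, hc⟩ := hres' a
          refine ⟨c • yz, Submodule.smul_mem _ c hyz, ?_⟩
          have hzk : z ∈ maximalIdeal D ^ k := ht ▸ hz
          have : a • z - c • yz = (a - algebraMap O D c) * z + algebraMap O D c * (z - yz) := by
            rw [smul_eq_mul, Algebra.smul_def]; ring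
          rw [this]
          exact add_mem (pow_succ' (maximalIdeal D) k ▸ Ideal.mul_mem_mul hc hzk)
            (Ideal.mul_mem_left _ _ hz')
      obtain ⟨y', hy', hxy'⟩ := hsub _ hxy
      refine ⟨y + y', add_mem (Submodule.span_mono (by simp) hy)
        (Submodule.span_mono (by simp) hy'), ?_⟩
      rwa [← sub_sub]
  obtain ⟨s, hs⟩ := hgen N
  have hmapD : (maximalIdeal O).map (algebraMap O D) = Ideal.span {algebraMap O D ϖ} := by
    rw [hϖ.maximalIdeal_eq, Ideal.map_span, Set.image_singleton]
  have : IsHausdorff (maximalIdeal O) D := by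
    refine IsHausdorff.map_algebraMap_iff (S := D).mp (IsHausdorff.of_isLocalRing _ D ?_)
    rw [hmapD]
    refine ne_top_of_le_ne_top (maximalIdeal.isMaximal D).ne_top
      ((Ideal.span_singleton_le_iff_mem _).mpr ?_)
    have hnu : ¬ IsUnit (algebraMap O P ϖ) := fun h => hϖ.not_isUnit (isUnit_of_map_unit _ _ h)
    rw [IsLocalRing.mem_maximalIdeal, mem_nonunits_iff, IsScalarTower.algebraMap_apply O P D]
    exact fun hu => hnu (isUnit_of_map_unit (Ideal.Quotient.mk Q₁) _ hu)
  let l : (s → O) →ₗ[O] D := Fintype.linearCombination O (fun i : s => (i : D))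
  have hl : Function.Surjective ((Submodule.mkQ
      (maximalIdeal O • (⊤ : Submodule O D))).comp l) := by
    intro q
    obtain ⟨x, rfl⟩ := Submodule.mkQ_surjective _ q
    obtain ⟨y, hy, hxy⟩ := hs x
    have : y ∈ LinearMap.range l := by
      rw [Fintype.range_linearCombination]
      simpa using hy
    obtain ⟨v, rfl⟩ := this
    refine ⟨v, ?_⟩
    rw [LinearMap.comp_apply, Submodule.mkQ_apply, Submodule.mkQ_apply, eq_comm,
      Submodule.Quotient.eq, Ideal.smul_top_eq_map, Submodule.restrictScalars_mem, hmapD]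
    exact hN hxy
  have : IsAdicComplete (maximalIdeal O) (s → O) :=
    P2MW.S_IsLocalRing_isAdicComplete_of_module_finite.M4cP1X1.isAdicComplete_of_module_finite _
  have hfin : Module.Finite O D :=
    Module.Finite.of_surjective l (surjective_of_mkQ_comp_surjective (I := maximalIdeal O) hl)
  have hbot : ∀ a : O, algebraMap O D a ∈ (⊥ : Ideal D) → a = 0 := by
    intro a ha
    rw [Submodule.mem_bot] at ha
    by_contra ha0
    obtain ⟨n, u, rfl⟩ := IsDiscreteValuationRing.eq_unit_mul_pow_irreducible ha0 hϖ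
    rw [map_mul, map_pow] at ha
    rcases mul_eq_zero.mp ha with h | h
    · exact (u.isUnit.map (algebraMap O D)).ne_zero h
    · exact hϖD (eq_zero_of_pow_eq_zero h)
  have : (⊥ : Ideal D).IsPrime := Ideal.isPrime_bot
  obtain ⟨V, iV, iVd, iVdvr, iVc, iVf, iVz, iVa, iVfin, iVl, hinj, g, hg⟩ :=
    Fermat.Agent.EichlerShimura.exists_finiteDVR_extension O D ⊥ hbot
  refine ⟨V, iV, iVd, iVdvr, iVc, iVa, iVl, hinj,
    g.comp (Ideal.Quotient.mkₐ O Q₁), ?_, ?_, ?_⟩
  · intro x hx
    rw [RingHom.mem_ker, AlgHom.comp_apply, Ideal.Quotient.mkₐ_eq_mk,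
      Ideal.Quotient.eq_zero_iff_mem.mpr (hQQ₁ hx), map_zero]
  · intro h0
    rw [AlgHom.comp_apply, Ideal.Quotient.mkₐ_eq_mk, ← RingHom.mem_ker, hg, Submodule.mem_bot,
      Ideal.Quotient.eq_zero_iff_mem] at h0
    exact hQ₁ (Ideal.mul_mem_right _ Q₁ h0)
  · intro x hx
    have hxD : π x ∈ maximalIdeal D := by
      rw [IsLocalRing.mem_maximalIdeal, mem_nonunits_iff] at hx ⊢
      exact fun hu => hx (isUnit_of_map_unit π _ hu)
    obtain ⟨d, hd⟩ := Ideal.mem_span_singleton.mp (hN (Ideal.pow_mem_pow hxD N))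
    rw [IsLocalRing.mem_maximalIdeal, mem_nonunits_iff]
    intro hu
    have hu' : IsUnit (g (π x ^ N)) := by rw [map_pow]; exact hu.pow N
    rw [hd, map_mul, AlgHom.commutes] at hu'
    exact hϖ.not_isUnit (isUnit_of_map_unit (algebraMap O V) _ (isUnit_of_mul_isUnit_left hu'))

end Points

end Fermat.Agent.RT.LocalRing
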